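import Fermat.Agent.BaseChangeFF.Gauss

/-!
# Tensor products over algebraically closed fields are domains; existence of base changes
-/

set_option autoImplicit false

noncomputable section

open Module
open scoped TensorProduct

namespace Fermat.Agent.BaseChangeFF

variable (k L F₀ : Type*) [Field k] [Field L] [Algebra k L] [Field F₀] [Algebra k F₀]

namespace RD

variable {k L} (𝔯 : RD k L)

/-- `A ⊗ F₀ → L ⊗ F₀` -/
def jj : 𝔯.A ⊗[k] F₀ →ₐ[k] L ⊗[k] F₀ :=
  Algebra.TensorProduct.map
    ({ toRingHom := 𝔯.A.subtype, commutes' := fun _ => rfl } : 𝔯.A →ₐ[k] L) (AlgHom.id k F₀)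

theorem jj_tmul (a : 𝔯.A) (x : F₀) : 𝔯.jj F₀ (a ⊗ₜ x) = (a : L) ⊗ₜ x := rfl

variable {F₀} {ι : Type*} (b : Basis ι k F₀)

theorem jj_elt (d : ι →₀ 𝔯.A) : 𝔯.jj F₀ (𝔯.elt b d) =
    (Algebra.TensorProduct.basis L b).repr.symm (𝔯.up d) := by
  rw [elt, Finsupp.sum, map_sum, Basis.repr_symm_apply, Finsupp.linearCombination_apply, up,
    Finsupp.sum_mapRange_index (by simp), Finsupp.sum]
  refine Finset.sum_congr rfl fun i _ => ?_
  rw [jj_tmul, Algebra.TensorProduct.basis_repr_symm_apply']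

theorem jj_injective : Function.Injective (𝔯.jj F₀) := by
  rw [injective_iff_map_eq_zero]
  intro t ht
  let b := Module.Basis.ofVectorSpace k F₀
  obtain ⟨d, rfl⟩ := 𝔯.elt_surjective b t
  rw [jj_elt] at ht
  have h1 : 𝔯.up d = 0 := (LinearEquiv.map_eq_zero_iff _).mp ht
  have h2 : d = 0 := by
    ext i
    have := DFunLike.congr_fun h1 i
    simpa using this
  rw [h2]; simp [elt]

theorem exists_prim_tensor {x : L ⊗[k] F₀} (hx : x ≠ 0) : ∃ (c : L) (t : 𝔯.A ⊗[k] F₀), c ≠ 0 ∧
    𝔯.φ F₀ t ≠ 0 ∧ x = c • 𝔯.jj F₀ t := by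
  let b := Module.Basis.ofVectorSpace k F₀
  let bL := Algebra.TensorProduct.basis L b
  have hw : bL.repr x ≠ 0 := by
    intro h0
    apply hx
    simpa using h0
  obtain ⟨j, d, hj0, hdj, hd⟩ := 𝔯.exists_scale (bL.repr x) hw
  refine ⟨bL.repr x j, 𝔯.elt b d, hj0, ?_, ?_⟩
  · rw [φ_elt]
    intro h0
    have h1 : 𝔯.dn d = 0 := b.linearIndependent (by rw [h0, map_zero])
    have h2 := DFunLike.congr_fun h1 j
    rw [dn_apply, hdj, map_one] at h2
    exact one_ne_zero h2
  · rw [jj_elt, ← map_smul]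
    apply bL.repr.injective
    show bL.repr x = bL.repr (bL.repr.symm _)
    rw [LinearEquiv.apply_symm_apply]
    ext i
    rw [hd i, Finsupp.smul_apply, up_apply, smul_eq_mul]

end RD

variable {F₀} in
instance isDomain_tensor [IsAlgClosed k] : IsDomain (L ⊗[k] F₀) := by
  have : Nontrivial (L ⊗[k] F₀) :=
    (Algebra.TensorProduct.includeLeft_injective (R := k) (S := k) (A := L) (B := F₀)
      (algebraMap k F₀).injective).nontrivial
  obtain ⟨𝔯⟩ := exists_RD k L
  have : NoZeroDivisors (L ⊗[k] F₀) := by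
    refine ⟨fun {x y} hxy => ?_⟩
    by_contra! hne
    obtain ⟨c, t, hc, ht, rfl⟩ := 𝔯.exists_prim_tensor hne.1
    obtain ⟨c', t', hc', ht', rfl⟩ := 𝔯.exists_prim_tensor hne.2
    rw [smul_mul_smul_comm, ← map_mul] at hxy
    have h1 : 𝔯.jj F₀ (t * t') = 0 := by
      rcases smul_eq_zero.mp hxy with h | h
      · exact absurd h (mul_ne_zero hc hc')
      · exact h
    have h2 : t * t' = 0 := 𝔯.jj_injective (by rw [h1, map_zero])
    have h3 := congrArg (𝔯.φ F₀) h2
    rw [map_mul, map_zero] at h3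
    exact mul_ne_zero ht ht' h3
  exact NoZeroDivisors.to_isDomain _

/-- The base change `L·F₀`. -/
def BCField [IsAlgClosed k] : Type _ := FractionRing (L ⊗[k] F₀)

namespace BCField

variable [IsAlgClosed k]

instance : Field (BCField k L F₀) := inferInstanceAs (Field (FractionRing (L ⊗[k] F₀)))
instance : Algebra (L ⊗[k] F₀) (BCField k L F₀) :=
  inferInstanceAs (Algebra (L ⊗[k] F₀) (FractionRing (L ⊗[k] F₀)))
instance : IsFractionRing (L ⊗[k] F₀) (BCField k L F₀) :=
  inferInstanceAs (IsFractionRing (L ⊗[k] F₀) (FractionRing (L ⊗[k] F₀)))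
instance : Algebra L (BCField k L F₀) :=
  ((algebraMap (L ⊗[k] F₀) (BCField k L F₀)).comp
    (algebraMap L (L ⊗[k] F₀))).toAlgebra
instance : Algebra k (BCField k L F₀) :=
  ((algebraMap (L ⊗[k] F₀) (BCField k L F₀)).comp
    (algebraMap k (L ⊗[k] F₀))).toAlgebra
instance : Algebra F₀ (BCField k L F₀) :=
  ((algebraMap (L ⊗[k] F₀) (BCField k L F₀)).comp
    (Algebra.TensorProduct.includeRight : F₀ →ₐ[k] L ⊗[k] F₀).toRingHom).toAlgebra

theorem algebraMap_L (a : L) : algebraMap L (BCField k L F₀) a =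
    algebraMap (L ⊗[k] F₀) (BCField k L F₀) (a ⊗ₜ 1) := rfl
theorem algebraMap_F₀ (a : F₀) : algebraMap F₀ (BCField k L F₀) a =
    algebraMap (L ⊗[k] F₀) (BCField k L F₀) (1 ⊗ₜ a) := rfl
theorem algebraMap_k (a : k) : algebraMap k (BCField k L F₀) a =
    algebraMap (L ⊗[k] F₀) (BCField k L F₀) (algebraMap k L a ⊗ₜ 1) := rfl

instance : IsScalarTower k L (BCField k L F₀) := IsScalarTower.of_algebraMap_eq fun x => by
  rw [algebraMap_L, algebraMap_k]

instance : IsScalarTower k F₀ (BCField k L F₀) := IsScalarTower.of_algebraMap_eq fun x => by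
  rw [algebraMap_F₀, algebraMap_k]
  congr 1
  rw [Algebra.algebraMap_eq_smul_one, Algebra.algebraMap_eq_smul_one, TensorProduct.smul_tmul]

instance : IsScalarTower L (L ⊗[k] F₀) (BCField k L F₀) :=
  IsScalarTower.of_algebraMap_eq fun x => rfl

instance instBC : BC k L F₀ (BCField k L F₀) where
  lin n f hf := by
    have h1 := Module.Flat.linearIndependent_one_tmul (S := L) hf
    have h2 := h1.map' (IsScalarTower.toAlgHom L (L ⊗[k] F₀) (BCField k L F₀)).toLinearMap (by
      rw [LinearMap.ker_eq_bot]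
      exact IsFractionRing.injective (L ⊗[k] F₀) (BCField k L F₀))
    exact h2
  gen z := by
    have hspan : ∀ t : L ⊗[k] F₀, algebraMap (L ⊗[k] F₀) (BCField k L F₀) t ∈
        Submodule.span L (Set.range (algebraMap F₀ (BCField k L F₀))) := by
      intro t
      induction t using TensorProduct.induction_on with
      | zero => rw [map_zero]; exact Submodule.zero_mem _
      | add x y hx hy => rw [map_add]; exact Submodule.add_mem _ hx hy
      | tmul a x =>
        have : algebraMap (L ⊗[k] F₀) (BCField k L F₀) (a ⊗ₜ x) =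
            a • algebraMap F₀ (BCField k L F₀) x := by
          rw [Algebra.smul_def, algebraMap_L, algebraMap_F₀, ← map_mul,
            Algebra.TensorProduct.tmul_mul_tmul, one_mul, mul_one]
        rw [this]
        exact Submodule.smul_mem _ _ (Submodule.subset_span ⟨_, rfl⟩)
    obtain ⟨a, b, hb, h⟩ := IsFractionRing.div_surjective (A := L ⊗[k] F₀) z
    refine ⟨_, _, hspan a, hspan b, ?_, ?_⟩
    · intro h0
      apply nonZeroDivisors.ne_zero hb
      exact IsFractionRing.injective (L ⊗[k] F₀) (BCField k L F₀) (by rw [h0, map_zero])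
    · rw [← h]
      have hb0 : algebraMap (L ⊗[k] F₀) (BCField k L F₀) b ≠ 0 := by
        intro h0
        apply nonZeroDivisors.ne_zero hb
        exact IsFractionRing.injective (L ⊗[k] F₀) (BCField k L F₀) (by rw [h0, map_zero])
      field_simp

end BCField

end Fermat.Agent.BaseChangeFF
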