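import Fermat.Agent.FunField.RR
import Fermat.Agent.FunField.StrongApprox
import Fermat.Agent.Deuring.Main

/-!
# Base change of function fields along extensions of algebraically closed constant fields
-/

set_option autoImplicit false

noncomputable section

open AlgebraicCurve Module IntermediateField
open Fermat.Agent.FunField Fermat.Agent.FunField.PlaceLemmas

namespace Fermat.Agent.BaseChangeFF

variable (K₀ K F₀ F : Type*) [Field K₀] [Field K] [Algebra K₀ K] [Field F₀] [Algebra K₀ F₀]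
  [Field F] [Algebra K F] [Algebra F₀ F] [Algebra K₀ F] [IsScalarTower K₀ K F]
  [IsScalarTower K₀ F₀ F]

/-- `F = K·F₀`, with `K` and `F₀` linearly disjoint over `K₀`. -/
class BC : Prop where
  lin : ∀ (n : ℕ) (f : Fin n → F₀), LinearIndependent K₀ f →
    LinearIndependent K (fun i => algebraMap F₀ F (f i))
  gen : ∀ z : F, ∃ a b : F, a ∈ Submodule.span K (Set.range (algebraMap F₀ F)) ∧
    b ∈ Submodule.span K (Set.range (algebraMap F₀ F)) ∧ b ≠ 0 ∧ z * b = a

variable {K₀ K F₀ F}

omit [Algebra K₀ K] [Algebra K₀ F] [IsScalarTower K₀ K F] [IsScalarTower K₀ F₀ F] in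
theorem BC.linearIndependent [h : BC K₀ K F₀ F] {ι : Type*} {f : ι → F₀}
    (hf : LinearIndependent K₀ f) : LinearIndependent K (fun i => algebraMap F₀ F (f i)) := by
  rw [linearIndependent_iff_finset_linearIndependent]
  intro s
  have h1 : LinearIndependent K₀ (f ∘ (Subtype.val : s → ι)) :=
    hf.comp _ Subtype.val_injective
  have h2 := h.lin s.card (fun i => f (s.equivFin.symm i)) (h1.comp _ s.equivFin.symm.injective)
  have h3 := h2.comp s.equivFin s.equivFin.injective
  convert h3 using 1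
  ext i
  simp

omit [Algebra K₀ K] [Algebra K₀ F] [IsScalarTower K₀ K F] [IsScalarTower K₀ F₀ F] in
theorem BC.transcendental [h : BC K₀ K F₀ F] {x : F₀} (hx : Transcendental K₀ x) :
    Transcendental K (algebraMap F₀ F x) := by
  have h1 := linearIndependent_pow_of_transcendental hx
  have h2 := h.linearIndependent h1
  rw [transcendental_iff]
  intro p hp
  rw [Polynomial.aeval_eq_sum_range] at hp
  rw [linearIndependent_iff'] at h2
  ext i
  by_cases hi : i ∈ Finset.range (p.natDegree + 1)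
  · have := h2 (Finset.range (p.natDegree + 1)) p.coeff (by
      rw [← hp]
      refine Finset.sum_congr rfl fun i _ => ?_
      rw [map_pow]) i hi
    simpa using this
  · rw [Finset.mem_range, not_lt] at hi
    rw [Polynomial.coeff_eq_zero_of_natDegree_lt (by omega), Polynomial.coeff_zero]

/-- image of `K₀(x)` in `F` lies in `K(x)` -/
theorem algebraMap_mem_adjoin {x : F₀} {c : F₀} (hc : c ∈ K₀⟮x⟯) :
    algebraMap F₀ F c ∈ K⟮algebraMap F₀ F x⟯ := by
  have h1 : K₀⟮x⟯ ≤ (K⟮algebraMap F₀ F x⟯.restrictScalars K₀).comap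
      (IsScalarTower.toAlgHom K₀ F₀ F) := by
    rw [adjoin_simple_le_iff]
    exact mem_adjoin_simple_self K (algebraMap F₀ F x)
  exact h1 hc

/-- `F` is spanned over `K(x)` by `F₀`. -/
theorem span_eq_top [h : BC K₀ K F₀ F] [IsFF K₀ F₀] {x : F₀} (hx : Transcendental K₀ x) :
    Submodule.span K⟮algebraMap F₀ F x⟯ (Set.range (algebraMap F₀ F)) = ⊤ := by
  set x' := algebraMap F₀ F x with hx'
  have hfin := finiteDimensional_adjoin_of_isFF (K := K₀) hx
  have halg : ∀ y : F₀, IsAlgebraic K⟮x'⟯ (algebraMap F₀ F y) := by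
    intro y
    obtain ⟨p, hp0, hp⟩ := Algebra.IsAlgebraic.isAlgebraic (R := K₀⟮x⟯) y
    -- transfer the polynomial
    let φ : K₀⟮x⟯ →+* K⟮x'⟯ :=
      { toFun := fun c => ⟨algebraMap F₀ F c, algebraMap_mem_adjoin c.2⟩
        map_one' := by ext; simp
        map_mul' := by intro a b; ext; simp
        map_zero' := by ext; simp
        map_add' := by intro a b; ext; simp }
    refine ⟨p.map φ, (Polynomial.map_ne_zero_iff φ.injective).mpr hp0, ?_⟩
    rw [Polynomial.aeval_def, Polynomial.eval₂_map]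
    have h2 : (algebraMap K⟮x'⟯ F).comp φ = (algebraMap F₀ F).comp (algebraMap K₀⟮x⟯ F₀) := by
      ext c; rfl
    rw [h2, ← Polynomial.hom_eval₂]
    have h3 : Polynomial.eval₂ (algebraMap K₀⟮x⟯ F₀) y p = 0 := hp
    rw [h3, map_zero]
  -- the subalgebra
  let S : Subalgebra K⟮x'⟯ F := Algebra.adjoin K⟮x'⟯ (Set.range (algebraMap F₀ F))
  have hS : Subalgebra.toSubmodule S = Submodule.span K⟮x'⟯ (Set.range (algebraMap F₀ F)) := by
    rw [Algebra.adjoin_eq_span]
    congr 1
    have : (Submonoid.closure (Set.range (algebraMap F₀ F)) : Submonoid F) =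
        MonoidHom.mrange ((algebraMap F₀ F : F₀ →+* F) : F₀ →* F) := by
      apply le_antisymm
      · rw [Submonoid.closure_le]
        rintro _ ⟨y, rfl⟩
        exact ⟨y, rfl⟩
      · rintro _ ⟨y, rfl⟩
        exact Submonoid.subset_closure ⟨y, rfl⟩
    rw [this]
    ext z
    rfl
  have hint : Algebra.IsIntegral K⟮x'⟯ S := by
    apply Algebra.IsIntegral.adjoin
    rintro _ ⟨y, rfl⟩
    exact (halg y).isIntegral
  have hfield : IsField S := isField_of_isIntegral_of_isField' (Field.toIsField K⟮x'⟯)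
  have hspan : ∀ a ∈ Submodule.span K (Set.range (algebraMap F₀ F)), a ∈ S := by
    intro a ha
    induction ha using Submodule.span_induction with
    | mem a ha => exact Algebra.subset_adjoin ha
    | zero => exact S.zero_mem
    | add a b _ _ ha hb => exact S.add_mem ha hb
    | smul c a _ ha =>
      rw [Algebra.smul_def]
      refine S.mul_mem ?_ ha
      exact S.algebraMap_mem (algebraMap K K⟮x'⟯ c)
  rw [← hS]
  rw [Algebra.toSubmodule_eq_top, eq_top_iff]
  intro z _
  obtain ⟨a, b, ha, hb, hb0, hab⟩ := h.gen z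
  obtain ⟨c, hc⟩ := hfield.mul_inv_cancel (a := (⟨b, hspan b hb⟩ : S))
    (fun h0 => hb0 (congrArg Subtype.val h0))
  have hc' : b * (c : F) = 1 := congrArg Subtype.val hc
  have : z = a * c := by
    rw [← hab, mul_assoc, hc', mul_one]
  rw [this]
  exact S.mul_mem (hspan a ha) c.2

theorem finrank_adjoin_le [h : BC K₀ K F₀ F] [IsFF K₀ F₀] {x : F₀} (hx : Transcendental K₀ x) :
    FiniteDimensional K⟮algebraMap F₀ F x⟯ F ∧
      finrank K⟮algebraMap F₀ F x⟯ F ≤ finrank K₀⟮x⟯ F₀ := by
  have hfin := finiteDimensional_adjoin_of_isFF (K := K₀) hx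
  let b := Module.finBasis K₀⟮x⟯ F₀
  have h1 : Submodule.span K⟮algebraMap F₀ F x⟯ (Set.range (fun i => algebraMap F₀ F (b i)))
      = ⊤ := by
    rw [eq_top_iff, ← span_eq_top (K := K) (F := F) hx, Submodule.span_le]
    rintro _ ⟨y, rfl⟩
    rw [← b.sum_repr y, map_sum]
    refine Submodule.sum_mem _ fun i _ => ?_
    have : algebraMap F₀ F (b.repr y i • b i) =
        (⟨algebraMap F₀ F (b.repr y i), algebraMap_mem_adjoin (b.repr y i).2⟩ :
          K⟮algebraMap F₀ F x⟯) • algebraMap F₀ F (b i) := by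
      rw [Algebra.smul_def, map_mul]; rfl
    rw [this]
    exact Submodule.smul_mem _ _ (Submodule.subset_span ⟨i, rfl⟩)
  refine ⟨⟨by rw [← h1]; exact Submodule.fg_span (Set.finite_range _)⟩, ?_⟩
  have h2 := finrank_range_le_card (R := K⟮algebraMap F₀ F x⟯)
    (fun i => algebraMap F₀ F (b i))
  rw [Set.finrank, h1, finrank_top] at h2
  simpa using h2

theorem isFF [h : BC K₀ K F₀ F] [h0 : IsFF K₀ F₀] : IsFF K F := by
  obtain ⟨x, hx, -⟩ := h0.exists_transcendental
  exact ⟨⟨algebraMap F₀ F x, h.transcendental hx, (finrank_adjoin_le hx).1⟩⟩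

/-- restriction of a place of `F` to `F₀`, as a valuation ring -/
def rst (w : Place K F) : ValuationSubring F₀ := w.toValuationSubring.comap (algebraMap F₀ F)

theorem mem_rst {w : Place K F} {f : F₀} :
    f ∈ rst (F₀ := F₀) w ↔ algebraMap F₀ F f ∈ w.toValuationSubring := Iff.rfl

theorem algebraMap_mem_rst (w : Place K F) (c : K₀) : algebraMap K₀ F₀ c ∈ rst (F₀ := F₀) w := by
  rw [mem_rst, ← IsScalarTower.algebraMap_apply, IsScalarTower.algebraMap_apply K₀ K F]
  exact w.algebraMap_mem' _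

theorem ord_eq_zero_of_mem {K F : Type*} [Field K] [Field F] [Algebra K F] {w : Place K F} {a : F}
    (h1 : a ∈ w.toValuationSubring) (h2 : a⁻¹ ∈ w.toValuationSubring) : w.ord a = 0 := by
  by_cases ha : a = 0
  · rw [ha, w.ord_zero]
  have h3 := (mem_iff_ord_nonneg w ha).mp h1
  have h4 := (mem_iff_ord_nonneg w (inv_ne_zero ha)).mp h2
  rw [w.ord_inv] at h4
  omega

theorem ord_eq_zero_of_rst_top {w : Place K F} (h : rst (F₀ := F₀) w = ⊤) (f : F₀) :
    w.ord (algebraMap F₀ F f) = 0 := by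
  apply ord_eq_zero_of_mem
  · rw [← mem_rst, h]; trivial
  · rw [← map_inv₀, ← mem_rst, h]; trivial

/-- places above a place -/
theorem exists_ram {w : Place K F} {v : Place K₀ F₀} (h : v.toValuationSubring = rst w) :
    ∃ e : ℤ, 0 < e ∧ ∀ f : F₀, w.ord (algebraMap F₀ F f) = e * v.ord f := by
  obtain ⟨π, hπ⟩ := IsDiscreteValuationRing.exists_irreducible v.toValuationSubring
  have hπ0 : (π : F₀) ≠ 0 := fun h0 => hπ.ne_zero (Subtype.ext h0)
  have hπF : algebraMap F₀ F (π : F₀) ≠ 0 := by simpa using hπ0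
  have hmem : ∀ a : F₀, a ∈ v.toValuationSubring ↔ algebraMap F₀ F a ∈ w.toValuationSubring := by
    intro a; rw [h, mem_rst]
  have he : 0 < w.ord (algebraMap F₀ F (π : F₀)) := by
    have h1 := (mem_iff_ord_nonneg w hπF).mp ((hmem _).mp π.2)
    rcases h1.lt_or_eq with h2 | h2
    · exact h2
    · exfalso
      have h3 : algebraMap F₀ F (π : F₀)⁻¹ ∈ w.toValuationSubring := by
        rw [map_inv₀, mem_iff_ord_nonneg w (inv_ne_zero hπF), w.ord_inv]
        omega
      have h4 := (hmem _).mpr h3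
      have h5 := (mem_iff_ord_nonneg v (inv_ne_zero hπ0)).mp h4
      rw [v.ord_inv, v.ord_coe_irreducible hπ] at h5
      omega
  refine ⟨_, he, fun f => ?_⟩
  by_cases hf : f = 0
  · simp [hf]
  obtain ⟨u, hu⟩ := v.exists_unit_mul_zpow hf hπ
  have hu0 : w.ord (algebraMap F₀ F ((u : v.toValuationSubring) : F₀)) = 0 := by
    apply ord_eq_zero_of_mem
    · exact (hmem _).mp (u : v.toValuationSubring).2
    · rw [← map_inv₀]
      apply (hmem _).mp
      have h1 : (((u : v.toValuationSubring) : F₀))⁻¹ = ((u⁻¹ : v.toValuationSubringˣ) :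
          v.toValuationSubring) := by
        have h2 : ((u : v.toValuationSubring) : F₀) * ((u⁻¹ : v.toValuationSubringˣ) :
          v.toValuationSubring) = 1 := by
          exact congrArg Subtype.val (Units.mul_inv u)
        exact inv_eq_of_mul_eq_one_right h2
      rw [h1]
      exact ((u⁻¹ : v.toValuationSubringˣ) : v.toValuationSubring).2
  have hune : algebraMap F₀ F ((u : v.toValuationSubring) : F₀) ≠ 0 := by
    have : ((u : v.toValuationSubring) : F₀) ≠ 0 := by simp
    simpa using this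
  conv_lhs => rw [hu]
  rw [map_mul, map_zpow₀, w.ord_mul hune (zpow_ne_zero _ hπF), hu0, w.ord_zpow, zero_add, mul_comm]

/-- the place below -/
def below [IsFF K₀ F₀] (w : Place K F) (h : rst (F₀ := F₀) w ≠ ⊤) : Place K₀ F₀ :=
  placeOfValuationSubring (rst w) (algebraMap_mem_rst w) h

theorem map_mem_rr [IsFF K₀ F₀] [IsFF K F] (x : F₀) (n : ℕ) {f : F₀}
    (hf : f ∈ riemannRochSpace (n • poleDiv x : Divisor K₀ F₀)) :
    algebraMap F₀ F f ∈ riemannRochSpace (n • poleDiv (algebraMap F₀ F x) : Divisor K F) := by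
  by_cases hf0 : f = 0
  · rw [hf0, map_zero]; exact Submodule.zero_mem _
  rw [mem_rr] at hf ⊢
  intro w
  have hf0' : algebraMap F₀ F f ≠ 0 := by simpa using hf0
  rw [mem_geSub_of_ne hf0', Finsupp.smul_apply, poleDiv_apply]
  by_cases hw : rst (F₀ := F₀) w = ⊤
  · rw [ord_eq_zero_of_rst_top hw, ord_eq_zero_of_rst_top hw]; simp
  · have h1 := hf (below (K₀ := K₀) w hw)
    obtain ⟨e, he, heq⟩ := exists_ram (K₀ := K₀) (w := w) (v := below (K₀ := K₀) w hw) rfl
    rw [mem_geSub_of_ne hf0, Finsupp.smul_apply, poleDiv_apply] at h1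
    rw [heq, heq]
    simp only [nsmul_eq_mul] at h1 ⊢
    have h2 : max (-(e * (below (K₀ := K₀) w hw).ord x)) 0 =
        e * max (-((below (K₀ := K₀) w hw).ord x)) 0 := by
      rw [mul_max_of_nonneg _ _ he.le, mul_zero, mul_neg]
    rw [h2]
    nlinarith

theorem finrank_rr_le [h : BC K₀ K F₀ F] [IsFF K₀ F₀] [IsFF K F] (x : F₀) (n : ℕ) :
    finrank K₀ (riemannRochSpace (n • poleDiv x : Divisor K₀ F₀)) ≤
      finrank K (riemannRochSpace (n • poleDiv (algebraMap F₀ F x) : Divisor K F)) := by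
  let b := Module.finBasis K₀ (riemannRochSpace (n • poleDiv x : Divisor K₀ F₀))
  have h1 : LinearIndependent K₀ (fun i => ((b i : riemannRochSpace _) : F₀)) :=
    b.linearIndependent.map' (Submodule.subtype _) (Submodule.ker_subtype _)
  have h2 := h.linearIndependent h1
  have h3 : LinearIndependent K (fun i => (⟨algebraMap F₀ F ((b i : riemannRochSpace _) : F₀),
      map_mem_rr x n (b i).2⟩ :
      riemannRochSpace (n • poleDiv (algebraMap F₀ F x) : Divisor K F))) := by
    apply LinearIndependent.of_comp (Submodule.subtype _)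
    exact h2
  have h4 := h3.fintype_card_le_finrank
  simpa using h4

section alg
variable [IsAlgClosed K₀] [IsAlgClosed K] [BC K₀ K F₀ F] [IsFF K₀ F₀] [IsFF K F]

theorem degree_and_genus_aux {x : F₀} (hx : Transcendental K₀ x) :
    finrank K⟮algebraMap F₀ F x⟯ F = finrank K₀⟮x⟯ F₀ ∧ genusFF K F ≤ genusFF K₀ F₀ := by
  have hx' := BC.transcendental (K := K) (F := F) hx
  obtain ⟨N₀, hN₀⟩ := exists_finrank_rr_eq (K := K₀) (F := F₀)
  obtain ⟨N, hN⟩ := exists_finrank_rr_eq (K := K) (F := F)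
  have hd := (finrank_adjoin_le (K := K) (F := F) hx).2
  have hfin := finiteDimensional_adjoin_of_isFF (K := K₀) hx
  have hfin' := finiteDimensional_adjoin_of_isFF (K := K) hx'
  have hpos₀ : 0 < finrank K₀⟮x⟯ F₀ := finrank_pos
  have hpos : 0 < finrank K⟮algebraMap F₀ F x⟯ F := finrank_pos
  have key : ∀ n : ℕ, N₀ ≤ n → N ≤ n → (n : ℤ) * finrank K₀⟮x⟯ F₀ + 1 - genusFF K₀ F₀ ≤
      n * finrank K⟮algebraMap F₀ F x⟯ F + 1 - genusFF K F := by
    intro n h1 h2
    have h3 := hN₀ (n • poleDiv x) (by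
      rw [map_nsmul, degree_poleDiv hx, nsmul_eq_mul]
      have : (1 : ℤ) ≤ finrank K₀⟮x⟯ F₀ := by exact_mod_cast hpos₀
      nlinarith [Int.natCast_nonneg n])
    have h4 := hN (n • poleDiv (algebraMap F₀ F x)) (by
      rw [map_nsmul, degree_poleDiv hx', nsmul_eq_mul]
      have : (1 : ℤ) ≤ finrank K⟮algebraMap F₀ F x⟯ F := by exact_mod_cast hpos
      nlinarith [Int.natCast_nonneg n])
    rw [map_nsmul, degree_poleDiv hx, nsmul_eq_mul, finrank_rr_zero] at h3
    rw [map_nsmul, degree_poleDiv hx', nsmul_eq_mul, finrank_rr_zero] at h4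
    have h5 := finrank_rr_le (K₀ := K₀) (K := K) (F := F) x n
    have h6 : (finrank K₀ (riemannRochSpace (n • poleDiv x : Divisor K₀ F₀)) : ℤ) ≤
      finrank K (riemannRochSpace (n • poleDiv (algebraMap F₀ F x) : Divisor K F)) := by
      exact_mod_cast h5
    rw [h3, h4] at h6
    simpa using h6
  have hdeg : finrank K⟮algebraMap F₀ F x⟯ F = finrank K₀⟮x⟯ F₀ := by
    apply le_antisymm hd
    by_contra hlt
    push Not at hlt
    set n : ℕ := (max (max N₀ N) (genusFF K₀ F₀ + 1)).toNat with hn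
    have hn1 : max (max N₀ N) (genusFF K₀ F₀ + 1) ≤ n := Int.self_le_toNat _
    have h1 := key n (by omega) (by omega)
    have h2 : (finrank K⟮algebraMap F₀ F x⟯ F : ℤ) + 1 ≤ finrank K₀⟮x⟯ F₀ := by
      exact_mod_cast hlt
    have h3 : (genusFF K₀ F₀ : ℤ) + 1 ≤ n := le_trans (le_max_right _ _) hn1
    nlinarith [Int.natCast_nonneg n, Int.natCast_nonneg (genusFF K F)]
  refine ⟨hdeg, ?_⟩
  set n : ℕ := (max N₀ N).toNat with hn
  have hn1 : max N₀ N ≤ n := Int.self_le_toNat _
  have h1 := key n (by omega) (by omega)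
  rw [hdeg] at h1
  have : (genusFF K F : ℤ) ≤ genusFF K₀ F₀ := by linarith
  exact_mod_cast this

theorem finrank_adjoin_eq {x : F₀} (hx : Transcendental K₀ x) :
    finrank K⟮algebraMap F₀ F x⟯ F = finrank K₀⟮x⟯ F₀ := (degree_and_genus_aux hx).1

theorem genusFF_le : genusFF K F ≤ genusFF K₀ F₀ := by
  obtain ⟨x, hx, -⟩ := IsFF.exists_transcendental (K := K₀) (F := F₀)
  exact (degree_and_genus_aux hx).2

end alg

end Fermat.Agent.BaseChangeFF
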