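import Mathlib

/-!
# Countable algebraically closed subfields and embeddings into `ℂ`
-/

set_option autoImplicit false

noncomputable section

open Cardinal IntermediateField

namespace Fermat.Agent.BaseChangeFF

universe u

theorem exists_countable_subfield (K : Type u) [Field K] [IsAlgClosed K] [CharZero K]
    (S : Finset K) : ∃ K₀ : Subfield K, Countable K₀ ∧ IsAlgClosed K₀ ∧ ∀ a ∈ S, a ∈ K₀ := by
  let k : IntermediateField ℚ K := IntermediateField.adjoin ℚ (S : Set K)
  let L : IntermediateField k K := algebraicClosure k K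
  have hL : IsAlgClosed L := (algebraicClosure.isAlgClosure k K).isAlgClosed
  have hk : #k ≤ ℵ₀ := by
    have h1 := IntermediateField.lift_cardinalMk_adjoin_le ℚ (S : Set K)
    have h2 : lift.{u} #ℚ = ℵ₀ := by simp
    have h3 : #(S : Set K) ≤ ℵ₀ := (Finset.finite_toSet S).lt_aleph0.le
    rw [h2] at h1
    have h4 : lift.{0} #k ≤ ℵ₀ := by
      refine h1.trans ?_
      simp only [lift_uzero]
      exact max_le (max_le le_rfl h3) le_rfl
    simpa using h4
  have hLc : #L ≤ ℵ₀ := by
    have h1 := Algebra.IsAlgebraic.cardinalMk_le_max k L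
    exact h1.trans (max_le hk le_rfl)
  refine ⟨L.toSubfield, ?_, ?_, ?_⟩
  · exact Cardinal.mk_le_aleph0_iff.mp hLc
  · exact hL
  · intro a ha
    have h1 : a ∈ k := IntermediateField.subset_adjoin ℚ _ ha
    exact L.algebraMap_mem ⟨a, h1⟩

/-- A countable field of characteristic zero embeds into `ℂ`. -/
theorem exists_embedding (k : Type u) [Field k] [CharZero k] [Countable k] :
    Nonempty (k →+* ℂ) := by
  let M := FractionRing (MvPolynomial ℝ k)
  let Ω := AlgebraicClosure M
  have hk : lift.{0} #k ≤ ℵ₀ := by simp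
  have hcont : ℵ₀ ≤ lift.{u} (#ℝ) := by simp [Cardinal.mk_real, Cardinal.aleph0_le_continuum]
  have hR : #(MvPolynomial ℝ k) = lift.{u} #ℝ := by
    rw [MvPolynomial.cardinalMk_eq_max_lift]
    rw [max_eq_right (hk.trans hcont), max_eq_left hcont]
  have hF : #M = lift.{u} #ℝ := by
    rw [Cardinal.mk_fractionRing, hR]
  have hΩ : #Ω = lift.{u} #ℝ := by
    apply le_antisymm
    · have h1 := Algebra.IsAlgebraic.cardinalMk_le_max M Ω
      rw [hF, max_eq_left hcont] at h1
      exact h1
    · rw [← hF]
      exact Cardinal.mk_le_of_injective (algebraMap M Ω).injective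
  have hchar : CharZero M := by
    have : CharZero (MvPolynomial ℝ k) := MvPolynomial.instCharZero ..
    exact IsFractionRing.charZero (MvPolynomial ℝ k) 
  have hcharΩ : CharZero Ω := charZero_of_injective_algebraMap (algebraMap M Ω).injective
  have h1 : ℵ₀ < #Ω := by
    rw [hΩ, Cardinal.mk_real]
    simpa using Cardinal.aleph0_lt_continuum
  have h2 : Nonempty (Ω ≃ ℂ) := by
    rw [← Cardinal.lift_mk_eq', hΩ, Cardinal.mk_real, Cardinal.mk_complex]
    simp
  obtain ⟨e⟩ := IsAlgClosed.ringEquiv_of_equiv_of_charZero h1 h2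
  exact ⟨(e : Ω →+* ℂ).comp ((algebraMap M Ω).comp ((algebraMap (MvPolynomial ℝ k) M).comp
    MvPolynomial.C))⟩

end Fermat.Agent.BaseChangeFF
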