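import Fermat.Agent.BaseChangeFF.Countable
import Fermat.Agent.BaseChangeFF.Basic

/-!
# Descent of function fields to countable algebraically closed constant fields
-/

set_option autoImplicit false

noncomputable section

open AlgebraicCurve Module IntermediateField Polynomial
open Fermat.Agent.FunField

namespace Fermat.Agent.BaseChangeFF

section denom
variable {k F : Type*} [Field k] [Field F] [Algebra k F]

/-- common denominators in `k(x)` -/
theorem exists_common_denominator {x : F} {ι : Type*} (s : Finset ι) (m : ι → F)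
    (hm : ∀ t ∈ s, m t ∈ k⟮x⟯) :
    ∃ q : k[X], aeval x q ≠ 0 ∧ ∀ t ∈ s, ∃ p : k[X], aeval x p = m t * aeval x q := by
  classical
  induction s using Finset.induction_on with
  | empty => exact ⟨1, by simp, by simp⟩
  | insert a s ha ih =>
    obtain ⟨q, hq, hs⟩ := ih fun t ht => hm t (Finset.mem_insert_of_mem ht)
    obtain ⟨r, u, hru⟩ := (mem_adjoin_simple_iff k (m a)).mp (hm a (Finset.mem_insert_self a s))
    by_cases hu : aeval x u = 0
    · refine ⟨q, hq, fun t ht => ?_⟩
      rcases Finset.mem_insert.mp ht with rfl | ht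
      · exact ⟨0, by rw [hru, hu]; simp⟩
      · exact hs t ht
    · refine ⟨u * q, by rw [map_mul]; exact mul_ne_zero hu hq, fun t ht => ?_⟩
      rcases Finset.mem_insert.mp ht with rfl | ht
      · refine ⟨r * q, ?_⟩
        rw [hru, map_mul, map_mul]
        field_simp
      · obtain ⟨p, hp⟩ := hs t ht
        refine ⟨p * u, ?_⟩
        rw [map_mul, hp, map_mul]; ring

end denom

section subfield
variable {K F : Type*} [Field K] [Field F] [Algebra K F]

/-- elements of `K(x)` lie in `K₀(x)` for `K₀` large. -/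
theorem exists_finset_adjoin {x : F} {c : F} (hc : c ∈ K⟮x⟯) :
    ∃ S : Finset K, ∀ K₀ : Subfield K, (∀ a ∈ S, a ∈ K₀) → c ∈ K₀⟮x⟯ := by
  classical
  obtain ⟨r, s, hrs⟩ := (mem_adjoin_simple_iff K c).mp hc
  refine ⟨r.coeffs ∪ s.coeffs, fun K₀ h => ?_⟩
  have key : ∀ p : K[X], (∀ a ∈ p.coeffs, a ∈ K₀) → aeval x p ∈ K₀⟮x⟯ := by
    intro p hp
    rw [aeval_eq_sum_range]
    refine sum_mem fun i _ => ?_
    have h1 : p.coeff i ∈ K₀ := by
      by_cases h0 : p.coeff i = 0
      · rw [h0]; exact zero_mem _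
      · exact hp _ (Polynomial.coeff_mem_coeffs h0)
    rw [Algebra.smul_def]
    have h2 : algebraMap K F (p.coeff i) ∈ K₀⟮x⟯ :=
      (K₀⟮x⟯).algebraMap_mem (⟨p.coeff i, h1⟩ : K₀)
    exact mul_mem h2 (pow_mem (mem_adjoin_simple_self K₀ x) i)
  rw [hrs]
  exact div_mem (key r fun a ha => h a (Finset.mem_union_left _ ha))
    (key s fun a ha => h a (Finset.mem_union_right _ ha))

theorem exists_finset_adjoin' {x : F} {ι : Type*} (s : Finset ι) (c : ι → F)
    (hc : ∀ i ∈ s, c i ∈ K⟮x⟯) :
    ∃ S : Finset K, ∀ K₀ : Subfield K, (∀ a ∈ S, a ∈ K₀) → ∀ i ∈ s, c i ∈ K₀⟮x⟯ := by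
  classical
  induction s using Finset.induction_on with
  | empty => exact ⟨∅, by simp⟩
  | insert a s ha ih =>
    obtain ⟨S, hS⟩ := ih fun i hi => hc i (Finset.mem_insert_of_mem hi)
    obtain ⟨S', hS'⟩ := exists_finset_adjoin (hc a (Finset.mem_insert_self a s))
    refine ⟨S ∪ S', fun K₀ h i hi => ?_⟩
    rcases Finset.mem_insert.mp hi with rfl | hi
    · exact hS' K₀ fun a ha => h a (Finset.mem_union_right _ ha)
    · exact hS K₀ (fun a ha => h a (Finset.mem_union_left _ ha)) i hi

variable (K₀ : Subfield K)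

theorem adjoin_le {x c : F} (hc : c ∈ K₀⟮x⟯) : c ∈ K⟮x⟯ := by
  have : K₀⟮x⟯ ≤ (K⟮x⟯).restrictScalars K₀ := by
    rw [adjoin_simple_le_iff]
    exact mem_adjoin_simple_self K x
  exact this hc

/-- `K₀`-independent constants are `K₀(x)`-independent. -/
theorem indep_adjoin {x : F} (hx : Transcendental K x) {ι : Type*} {e : ι → K}
    (he : LinearIndependent K₀ e) (s : Finset ι) (m : ι → F) (hm : ∀ t ∈ s, m t ∈ K₀⟮x⟯)
    (h : ∑ t ∈ s, m t * algebraMap K F (e t) = 0) : ∀ t ∈ s, m t = 0 := by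
  classical
  obtain ⟨q, hq, hp⟩ := exists_common_denominator s m hm
  choose! p hp using hp
  let P : K[X] := ∑ t ∈ s, C (e t) * (p t).map (algebraMap K₀ K)
  have hP : aeval x P = 0 := by
    rw [map_sum]
    have : ∀ t ∈ s, aeval x (C (e t) * (p t).map (algebraMap K₀ K)) =
        (m t * algebraMap K F (e t)) * aeval x q := by
      intro t ht
      rw [map_mul, aeval_C, aeval_map_algebraMap, hp t ht]
      ring
    rw [Finset.sum_congr rfl this, ← Finset.sum_mul, h, zero_mul]
  have hP0 : P = 0 := transcendental_iff.mp hx P hP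
  have hcoef : ∀ n : ℕ, ∑ t ∈ s, (p t).coeff n • e t = 0 := by
    intro n
    have h1 := congrArg (fun Q : K[X] => Q.coeff n) hP0
    simp only [P, finsetSum_coeff, coeff_C_mul, coeff_map, coeff_zero] at h1
    rw [← h1]
    refine Finset.sum_congr rfl fun t _ => ?_
    rw [Algebra.smul_def, mul_comm]
  intro t ht
  have h2 : p t = 0 := by
    ext n
    have := linearIndependent_iff'.mp he s (fun t => (p t).coeff n) (hcoef n) t ht
    rw [this, coeff_zero]
  have h3 := hp t ht
  rw [h2, map_zero] at h3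
  exact (mul_eq_zero.mp h3.symm).resolve_right hq

section model
variable {x : F} {d : ℕ} (y : Basis (Fin d) K⟮x⟯ F)

/-- the `K₀(x)`-span of the basis -/
def VV : Submodule K₀⟮x⟯ F := Submodule.span K₀⟮x⟯ (Set.range y)

theorem mem_VV {z : F} : z ∈ VV K₀ y ↔ ∃ c : Fin d → K₀⟮x⟯, ∑ i, (c i : F) * y i = z := by
  rw [VV, Submodule.mem_span_range_iff_exists_fun]
  rfl

theorem mem_VV_of_coords {z : F} (h : ∀ i, (y.repr z i : F) ∈ K₀⟮x⟯) : z ∈ VV K₀ y := by
  rw [mem_VV]
  refine ⟨fun i => ⟨_, h i⟩, ?_⟩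
  conv_rhs => rw [← y.sum_repr z]
  rfl

theorem VV_indep (hx : Transcendental K x) {ι : Type*} {e : ι → K}
    (he : LinearIndependent K₀ e) (s : Finset ι) (m : ι → F) (hm : ∀ t ∈ s, m t ∈ VV K₀ y)
    (h : ∑ t ∈ s, m t * algebraMap K F (e t) = 0) : ∀ t ∈ s, m t = 0 := by
  classical
  have hm' : ∀ t, ∃ c : Fin d → K₀⟮x⟯, t ∈ s → ∑ i, (c i : F) * y i = m t := by
    intro t
    by_cases ht : t ∈ s
    · obtain ⟨c, hc⟩ := (mem_VV K₀ y).mp (hm t ht)
      exact ⟨c, fun _ => hc⟩
    · exact ⟨0, fun h => absurd h ht⟩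
  choose c hc using hm'
  have key : ∀ i, ∑ t ∈ s, (c t i : F) * algebraMap K F (e t) = 0 := by
    have h1 : ∀ i, (∑ t ∈ s, (c t i : F) * algebraMap K F (e t)) ∈ K⟮x⟯ := fun i =>
      sum_mem fun t _ => mul_mem (adjoin_le K₀ (c t i).2) (IntermediateField.algebraMap_mem _ _)
    have h2 : ∑ i, (⟨∑ t ∈ s, (c t i : F) * algebraMap K F (e t), h1 i⟩ : K⟮x⟯) • y i = 0 := by
      rw [← h]
      have : ∀ i, (⟨∑ t ∈ s, (c t i : F) * algebraMap K F (e t), h1 i⟩ : K⟮x⟯) • y i =
          ∑ t ∈ s, (c t i : F) * algebraMap K F (e t) * y i := by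
        intro i
        rw [Algebra.smul_def]
        show (∑ t ∈ s, (c t i : F) * algebraMap K F (e t)) * y i = _
        rw [Finset.sum_mul]
      simp_rw [this]
      rw [Finset.sum_comm]
      refine Finset.sum_congr rfl fun t ht => ?_
      rw [← hc t ht, Finset.sum_mul]
      refine Finset.sum_congr rfl fun i _ => ?_
      ring
    intro i
    have h3 := Fintype.linearIndependent_iff.mp y.linearIndependent _ h2 i
    exact congrArg Subtype.val h3
  intro t ht
  rw [← hc t ht]
  refine Finset.sum_eq_zero fun i _ => ?_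
  rw [indep_adjoin K₀ hx he s (fun t => (c t i : F)) (fun t _ => (c t i).2) (key i) t ht, zero_mul]

variable (h1 : (1 : F) ∈ VV K₀ y) (hmul : ∀ i j, y i * y j ∈ VV K₀ y)

include hmul in
theorem VV_mul : ∀ a b : F, a ∈ VV K₀ y → b ∈ VV K₀ y → a * b ∈ VV K₀ y := by
  intro a b ha hb
  have h2 : VV K₀ y * VV K₀ y ≤ VV K₀ y := by
    unfold VV
    rw [Submodule.span_mul_span, Submodule.span_le]
    rintro _ ⟨_, ⟨i, rfl⟩, _, ⟨j, rfl⟩, rfl⟩
    exact hmul i j
  exact h2 (Submodule.mul_mem_mul ha hb)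

/-- the subalgebra -/
def SS : Subalgebra K₀⟮x⟯ F := (VV K₀ y).toSubalgebra h1 (VV_mul K₀ y hmul)

theorem SS_isField : IsField (SS K₀ y h1 hmul) := by
  have hfin : Module.Finite K₀⟮x⟯ (SS K₀ y h1 hmul) :=
    FiniteDimensional.span_of_finite K₀⟮x⟯ (Set.finite_range y)
  have hint : Algebra.IsIntegral K₀⟮x⟯ (SS K₀ y h1 hmul) := Algebra.IsIntegral.of_finite _ _
  exact isField_of_isIntegral_of_isField' (Field.toIsField K₀⟮x⟯)

/-- the model over `K₀` -/
def model : IntermediateField K₀ F :=
  ((SS K₀ y h1 hmul).toIntermediateField' (SS_isField K₀ y h1 hmul)).restrictScalars K₀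

theorem mem_model {z : F} : z ∈ model K₀ y h1 hmul ↔ z ∈ VV K₀ y := Iff.rfl

theorem x_mem_model : x ∈ model K₀ y h1 hmul := by
  rw [mem_model]
  have h2 := (VV K₀ y).smul_mem (⟨x, mem_adjoin_simple_self K₀ x⟩ : K₀⟮x⟯) h1
  rw [Algebra.smul_def, mul_one] at h2
  exact h2

theorem y_mem_model (i : Fin d) : y i ∈ model K₀ y h1 hmul := by
  rw [mem_model]
  exact Submodule.subset_span ⟨i, rfl⟩

theorem BC_model (hx : Transcendental K x) : BC K₀ K (model K₀ y h1 hmul) F where
  lin n f hf := by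
    classical
    rw [Fintype.linearIndependent_iff]
    intro κ hκ
    let e := Module.Basis.ofVectorSpace K₀ K
    let s := Finset.univ.biUnion fun a => (e.repr (κ a)).support
    have hrepr : ∀ a, algebraMap K F (κ a) =
        ∑ t ∈ s, algebraMap K₀ F (e.repr (κ a) t) * algebraMap K F (e t) := by
      intro a
      conv_lhs => rw [← e.linearCombination_repr (κ a), Finsupp.linearCombination_apply,
        Finsupp.sum, map_sum]
      rw [Finset.sum_subset (Finset.subset_biUnion_of_mem
        (fun a => (e.repr (κ a)).support) (Finset.mem_univ a))]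
      · refine Finset.sum_congr rfl fun t _ => ?_
        rw [Algebra.smul_def, map_mul]
        rfl
      · intro t _ ht
        rw [Finsupp.notMem_support_iff] at ht
        rw [ht, zero_smul, map_zero]
    have h2 : ∑ t ∈ s, (∑ a, algebraMap K₀ F (e.repr (κ a) t) * (f a : F)) *
        algebraMap K F (e t) = 0 := by
      rw [← hκ]
      simp_rw [Finset.sum_mul]
      rw [Finset.sum_comm]
      refine Finset.sum_congr rfl fun a _ => ?_
      rw [Algebra.smul_def, hrepr a, Finset.sum_mul]
      refine Finset.sum_congr rfl fun t _ => ?_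
      show _ = _ * (f a : F)
      ring
    have h3 := VV_indep K₀ y hx e.linearIndependent s
      (fun t => ∑ a, algebraMap K₀ F (e.repr (κ a) t) * (f a : F)) (fun t _ => by
        rw [← mem_model K₀ y h1 hmul]
        exact sum_mem fun a _ => mul_mem (IntermediateField.algebraMap_mem _ _) (f a).2) h2
    intro a
    have h4 : ∀ t, e.repr (κ a) t = 0 := by
      intro t
      by_cases ht : t ∈ s
      · have h5 := h3 t ht
        have h6 : ∑ a, e.repr (κ a) t • f a = 0 := by
          apply Subtype.ext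
          rw [AddSubmonoidClass.coe_finsetSum]
          rw [← h5.trans (by rfl : (0 : F) = ((0 : model K₀ y h1 hmul) : F))]
          refine Finset.sum_congr rfl fun a _ => ?_
          rw [Algebra.smul_def]
          rfl
        exact Fintype.linearIndependent_iff.mp hf _ h6 a
      · by_contra h7
        exact ht (Finset.mem_biUnion.mpr ⟨a, Finset.mem_univ a, Finsupp.mem_support_iff.mpr h7⟩)
    have h5 : e.repr (κ a) = 0 := Finsupp.ext h4
    simpa using h5
  gen z := by
    classical
    obtain ⟨q, hq, hp⟩ := exists_common_denominator (k := K) (x := x) Finset.univ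
      (fun i => (y.repr z i : F)) (fun i _ => (y.repr z i).2)
    have hspan : ∀ (p : K[X]) (w : F), w ∈ model K₀ y h1 hmul → aeval x p * w ∈
        Submodule.span K (Set.range (algebraMap (model K₀ y h1 hmul) F)) := by
      intro p w hw
      rw [aeval_eq_sum_range, Finset.sum_mul]
      refine Submodule.sum_mem _ fun n _ => ?_
      rw [smul_mul_assoc]
      refine Submodule.smul_mem _ _ (Submodule.subset_span ⟨⟨x ^ n * w, ?_⟩, rfl⟩)
      exact mul_mem (pow_mem (x_mem_model K₀ y h1 hmul) n) hw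
    refine ⟨z * aeval x q, aeval x q, ?_, ?_, hq, rfl⟩
    · have : z * aeval x q = ∑ i, (y.repr z i : F) * aeval x q * y i := by
        conv_lhs => rw [← y.sum_repr z, Finset.sum_mul]
        refine Finset.sum_congr rfl fun i _ => ?_
        rw [Algebra.smul_def]
        show (y.repr z i : F) * y i * _ = _
        ring
      rw [this]
      refine Submodule.sum_mem _ fun i _ => ?_
      obtain ⟨p, hp⟩ := hp i (Finset.mem_univ i)
      rw [← hp]
      exact hspan p _ (y_mem_model K₀ y h1 hmul i)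
    · have := hspan q 1 (one_mem _)
      rwa [mul_one] at this

theorem isFF_model (hx : Transcendental K x) : IsFF K₀ (model K₀ y h1 hmul) := by
  set F₀ := model K₀ y h1 hmul with hF₀
  let x₀ : F₀ := ⟨x, x_mem_model K₀ y h1 hmul⟩
  refine ⟨⟨x₀, ?_, ?_⟩⟩
  · intro halg
    have h2 : IsAlgebraic K₀ (algebraMap F₀ F x₀) := halg.algebraMap
    exact hx (h2.tower_top K)
  · have hcoe : ∀ r : K₀[X], ((aeval x₀ r : F₀) : F) = aeval x r := by
      intro r
      have := Polynomial.aeval_algebraMap_apply F x₀ r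
      exact this.symm
    have hlift : ∀ c ∈ K₀⟮x⟯, ∃ c' : K₀⟮x₀⟯, ((c' : F₀) : F) = c := by
      intro c hc
      obtain ⟨r, s, hrs⟩ := (mem_adjoin_simple_iff K₀ c).mp hc
      refine ⟨⟨aeval x₀ r / aeval x₀ s, (mem_adjoin_simple_iff K₀ _).mpr ⟨r, s, rfl⟩⟩, ?_⟩
      rw [hrs, ← hcoe, ← hcoe]
      rfl
    let y₀ : Fin d → F₀ := fun i => ⟨y i, y_mem_model K₀ y h1 hmul i⟩
    have hspan : Submodule.span K₀⟮x₀⟯ (Set.range y₀) = ⊤ := by
      rw [eq_top_iff]
      rintro f -
      obtain ⟨c, hc⟩ := (mem_VV K₀ y).mp f.2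
      choose c' hc' using fun i => hlift (c i) (c i).2
      rw [Submodule.mem_span_range_iff_exists_fun]
      refine ⟨c', ?_⟩
      apply Subtype.ext
      rw [AddSubmonoidClass.coe_finsetSum, ← hc]
      refine Finset.sum_congr rfl fun i _ => ?_
      rw [← hc']
      rfl
    exact ⟨by rw [← hspan]; exact Submodule.fg_span (Set.finite_range _)⟩

end model

end subfield

/-- **Descent**: a function field over an algebraically closed field of characteristic zero is the
base change of a function field over a countable algebraically closed subfield, which can be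
chosen to contain given finite sets. -/
theorem exists_descent {K F : Type*} [Field K] [Field F] [Algebra K F] [IsAlgClosed K]
    [CharZero K] [hFF : IsFF K F] (S : Finset K) (T : Finset F) :
    ∃ (K₀ : Subfield K) (F₀ : IntermediateField K₀ F), Countable K₀ ∧ IsAlgClosed K₀ ∧
      (∀ a ∈ S, a ∈ K₀) ∧ (∀ z ∈ T, z ∈ F₀) ∧ IsFF K₀ F₀ ∧ BC K₀ K F₀ F := by
  classical
  obtain ⟨x, hx, hfin⟩ := hFF.exists_transcendental
  let y := Module.finBasis K⟮x⟯ F
  -- the elements whose coordinates are needed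
  let U : Finset F := {1} ∪ T ∪ (Finset.univ.image fun p : Fin (finrank K⟮x⟯ F) ×
    Fin (finrank K⟮x⟯ F) => y p.1 * y p.2)
  obtain ⟨S', hS'⟩ := exists_finset_adjoin' (K := K) (x := x) (U ×ˢ Finset.univ)
    (fun p : F × Fin (finrank K⟮x⟯ F) => (y.repr p.1 p.2 : F)) (fun p _ => (y.repr p.1 p.2).2)
  obtain ⟨K₀, hc, hac, hmem⟩ := exists_countable_subfield K (S ∪ S')
  have hU : ∀ u ∈ U, u ∈ VV K₀ y := by
    intro u hu
    apply mem_VV_of_coords
    intro i
    exact hS' K₀ (fun a ha => hmem a (Finset.mem_union_right _ ha)) (u, i)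
      (Finset.mem_product.mpr ⟨hu, Finset.mem_univ _⟩)
  have h1 : (1 : F) ∈ VV K₀ y := hU 1 (by simp [U])
  have hmul : ∀ i j, y i * y j ∈ VV K₀ y := fun i j => hU _ (by
    apply Finset.mem_union_right
    exact Finset.mem_image.mpr ⟨(i, j), Finset.mem_univ _, rfl⟩)
  refine ⟨K₀, model K₀ y h1 hmul, hc, hac, fun a ha => hmem a (Finset.mem_union_left _ ha), ?_,
    isFF_model K₀ y h1 hmul hx, BC_model K₀ y h1 hmul hx⟩
  intro z hz
  rw [mem_model]
  exact hU z (Finset.mem_union_left _ (Finset.mem_union_right _ hz))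

end Fermat.Agent.BaseChangeFF
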