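import Fermat.Agent.BaseChangeFF.Main
import Fermat.Agent.S27C.Torsion

/-!
# Divisibility of the class group of a function field in characteristic zero
-/

set_option autoImplicit false

noncomputable section

open AlgebraicCurve Module
open Fermat.Agent.FunField Fermat.Agent.FunField.PlaceLemmas

namespace Fermat.Agent.BaseChangeFF

/-- value of a function at a place over an algebraically closed field -/
theorem exists_value {K F : Type*} [Field K] [Field F] [Algebra K F] [IsAlgClosed K] [IsFF K F]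
    (w : Place K F) (x : F) (hx : 0 ≤ w.ord x) (hx' : Transcendental K x) :
    ∃ a : K, 0 < w.ord (x - algebraMap K F a) := by
  have hx0 : x ≠ 0 := fun h => hx' (h ▸ isAlgebraic_zero)
  have hfin := Deuring.finite_residueField w
  have hint : Algebra.IsIntegral K w.ResidueField := Algebra.IsIntegral.of_finite _ _
  have hxm : x ∈ w.toValuationSubring := (mem_iff_ord_nonneg w hx0).mpr hx
  obtain ⟨a, ha⟩ := (IsAlgClosed.algebraMap_bijective_of_isIntegral (k := K)
    (K := w.ResidueField)).2 (IsLocalRing.residue _ ⟨x, hxm⟩)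
  refine ⟨a, ?_⟩
  have hne : x - algebraMap K F a ≠ 0 := by
    intro h0
    apply hx'
    rw [sub_eq_zero.mp h0]
    exact isAlgebraic_algebraMap a
  have hmem : x - algebraMap K F a ∈ w.toValuationSubring := sub_mem hxm (w.algebraMap_mem' a)
  have h1 : (⟨x - algebraMap K F a, hmem⟩ : w.toValuationSubring) ∈
      IsLocalRing.maximalIdeal w.toValuationSubring := by
    rw [← IsLocalRing.residue_eq_zero_iff]
    have h2 : (⟨x - algebraMap K F a, hmem⟩ : w.toValuationSubring) =
        ⟨x, hxm⟩ - algebraMap K w.toValuationSubring a := rfl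
    rw [h2, map_sub, sub_eq_zero, ← ha]
    rfl
  have h3 := (mem_maximalIdeal_iff w).mp h1
  rcases h3 with h3 | h3
  · exact absurd h3 hne
  · exact h3

/-- **`Pic0` is divisible**. -/
theorem pic0_divisible (K F : Type*) [Field K] [Field F] [Algebra K F] [IsAlgClosed K] [CharZero K]
    [hFF : IsFF K F] (n : ℕ) (hn : 0 < n) (c : Pic0 K F) : ∃ c' : Pic0 K F, n • c' = c := by
  classical
  obtain ⟨⟨D, hD⟩, rfl⟩ := Pic0.mk_surjective c
  obtain ⟨x, hx, -⟩ := hFF.exists_transcendental
  have hval : ∀ w : Place K F, ∃ a : K, 0 ≤ w.ord x → 0 < w.ord (x - algebraMap K F a) := by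
    intro w
    by_cases h : 0 ≤ w.ord x
    · obtain ⟨a, ha⟩ := exists_value w x h hx
      exact ⟨a, fun _ => ha⟩
    · exact ⟨0, fun h' => absurd h' h⟩
  choose val hval using hval
  obtain ⟨K₀, F₀, hcount, hac, hS, hT, hFF₀, hBC⟩ := exists_descent (K := K) (F := F)
    (D.support.image val) {x}
  have hxF₀ : x ∈ F₀ := hT x (Finset.mem_singleton_self x)
  obtain ⟨φ⟩ := exists_embedding K₀
  let : Algebra K₀ ℂ := φ.toAlgebra
  have hE : IsFF ℂ (BCField K₀ ℂ F₀) := isFF (K₀ := K₀) (F₀ := F₀)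
  have hE' : IsCurveOver ℂ (BCField K₀ ℂ F₀) := isCurveOver_of_isFF
  -- the support of `D` comes from `F₀`
  have hrange : ∀ w ∈ D.support, w ∈ Set.range (iota (K₀ := K₀) (F₀ := F₀) K F) := by
    intro w hw
    by_contra hcon
    have h1 := rst_top_of_not_mem_range hcon
    by_cases h : 0 ≤ w.ord x
    · have h2 := hval w h
      have h3 : val w ∈ K₀ := hS _ (Finset.mem_image_of_mem _ hw)
      have h4 : x - algebraMap K F (val w) ∈ F₀ :=
        sub_mem hxF₀ (F₀.algebraMap_mem (⟨val w, h3⟩ : K₀))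
      have h5 := ord_eq_zero_of_rst_top h1 (⟨_, h4⟩ : F₀)
      rw [← h5] at h2
      exact lt_irrefl _ h2
    · have h5 := ord_eq_zero_of_rst_top h1 (⟨_, hxF₀⟩ : F₀)
      apply h
      rw [← h5]
      exact le_rfl
  obtain ⟨D₀, hD₀⟩ : ∃ D₀ : Divisor K₀ F₀, iotaDiv K F D₀ = D := by
    refine ⟨Finsupp.comapDomain (iota K F) D (iota_injective.injOn), ?_⟩
    rw [iotaDiv_apply]
    exact Finsupp.mapDomain_comapDomain _ iota_injective _ (fun w hw => hrange w hw)
  have hD₀0 : D₀ ∈ Divisor.degZero (K := K₀) (F := F₀) := by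
    rw [Divisor.mem_degZero, ← degree_iotaDiv (K := K) (F := F), hD₀]
    exact hD
  -- divide over `ℂ` and retract
  obtain ⟨ρ, hρ, -⟩ := exists_retraction K₀ ℂ F₀ (BCField K₀ ℂ F₀)
  obtain ⟨δ, hδ⟩ := S27C.divisible_complex n hn (iotaPic ℂ (BCField K₀ ℂ F₀) (Pic0.mk ⟨D₀, hD₀0⟩))
  refine ⟨iotaPic K F (ρ δ), ?_⟩
  rw [← map_nsmul, ← map_nsmul, hδ, hρ, iotaPic, picMap_mk]
  congr 1
  exact Subtype.ext hD₀

end Fermat.Agent.BaseChangeFF
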