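import Fermat.Agent.BaseChangeFF.Residue

/-!
# Echelon forms over valuation rings
-/

set_option autoImplicit false

noncomputable section

open Module

namespace Fermat.Agent.BaseChangeFF

variable (K₀ K : Type*) [Field K₀] [Field K] [Algebra K₀ K]

/-- residue data: a valuation ring of `K` containing `K₀` with residue field `K₀`. -/
structure RD where
  A : ValuationSubring K
  π : A →+* K₀
  mem : ∀ c : K₀, algebraMap K₀ K c ∈ A
  π_alg : ∀ c : K₀, π ⟨algebraMap K₀ K c, mem c⟩ = c
  ker : ∀ a : A, π a = 0 ↔ ¬ IsUnit a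

theorem exists_RD [IsAlgClosed K₀] : Nonempty (RD K₀ K) := by
  obtain ⟨A, π, hA, h1, h2⟩ := exists_residue K₀ K
  exact ⟨⟨A, π, hA, h1, h2⟩⟩

variable {K₀ K}

namespace RD

variable (𝔯 : RD K₀ K)

/-- scaling of a nonzero vector -/
theorem exists_scale {ι : Type*} (c : ι →₀ K) (hc : c ≠ 0) :
    ∃ (j : ι) (d : ι →₀ 𝔯.A), c j ≠ 0 ∧ d j = 1 ∧ ∀ i, c i = c j * (d i : K) := by
  classical
  have hs : c.support.Nonempty := Finsupp.support_nonempty_iff.mpr hc
  obtain ⟨j, hj, hmax⟩ := Finset.exists_max_image c.support (fun i => 𝔯.A.valuation (c i)) hs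
  have hj0 : c j ≠ 0 := Finsupp.mem_support_iff.mp hj
  have hmem : ∀ i, c i / c j ∈ 𝔯.A := by
    intro i
    by_cases hi : c i = 0
    · rw [hi, zero_div]; exact zero_mem _
    · rw [← 𝔯.A.valuation_le_one_iff, map_div₀]
      exact div_le_one_of_le₀ (hmax i (Finsupp.mem_support_iff.mpr hi)) zero_le
  let d : ι →₀ 𝔯.A := Finsupp.onFinset c.support (fun i => ⟨c i / c j, hmem i⟩) (by
    intro i hi
    rw [Finsupp.mem_support_iff]
    intro h0
    apply hi
    ext
    simp [h0])
  refine ⟨j, d, hj0, ?_, ?_⟩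
  · ext
    simp [d, hj0]
  · intro i
    simp only [d, Finsupp.onFinset_apply]
    field_simp

/-- coordinates in `K` of a vector with coordinates in `A` -/
def up {ι : Type*} (d : ι →₀ 𝔯.A) : ι →₀ K := d.mapRange (fun a : 𝔯.A => (a : K)) rfl

/-- residues of a vector with coordinates in `A` -/
def dn {ι : Type*} (d : ι →₀ 𝔯.A) : ι →₀ K₀ := d.mapRange 𝔯.π (map_zero _)

@[simp] theorem up_apply {ι : Type*} (d : ι →₀ 𝔯.A) (i : ι) : 𝔯.up d i = (d i : K) := rfl
@[simp] theorem dn_apply {ι : Type*} (d : ι →₀ 𝔯.A) (i : ι) : 𝔯.dn d i = 𝔯.π (d i) := rfl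

/-- orthonormal bases. -/
theorem exists_echelon {ι : Type*} : ∀ (n : ℕ) (W : Submodule K (ι →₀ K)),
    FiniteDimensional K W → finrank K W = n →
    ∃ d : Fin n → (ι →₀ 𝔯.A), (∀ i, 𝔯.up (d i) ∈ W) ∧ LinearIndependent K₀ (fun i => 𝔯.dn (d i)) := by
  classical
  intro n
  induction n with
  | zero =>
    intro W _ _
    exact ⟨fun i => i.elim0, fun i => i.elim0, linearIndependent_empty_type⟩
  | succ n ih =>
    intro W hW hn
    have hne : W ≠ ⊥ := by
      rintro rfl
      rw [finrank_bot] at hn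
      omega
    obtain ⟨z, hz, hz0⟩ := Submodule.exists_mem_ne_zero_of_ne_bot hne
    obtain ⟨j, d, hj0, hdj, hd⟩ := 𝔯.exists_scale z hz0
    have hdW : 𝔯.up d ∈ W := by
      have : 𝔯.up d = (z j)⁻¹ • z := by
        ext i
        rw [up_apply, Finsupp.smul_apply, smul_eq_mul, hd i]
        field_simp
      rw [this]
      exact W.smul_mem _ hz
    -- the subspace of vectors with vanishing `j`-coordinate
    let φ : W →ₗ[K] K := (Finsupp.lapply j : (ι →₀ K) →ₗ[K] K).comp W.subtype
    have hφ : Function.Surjective φ := by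
      intro a
      refine ⟨a • ⟨𝔯.up d, hdW⟩, ?_⟩
      simp [φ, hdj]
    let W' : Submodule K (ι →₀ K) := (LinearMap.ker φ).map W.subtype
    have hW' : finrank K W' = n := by
      have h1 := LinearMap.finrank_range_add_finrank_ker (K := K) (V := W) (V₂ := K) φ
      rw [LinearMap.range_eq_top.mpr hφ, finrank_top, finrank_self, hn] at h1
      have h2 : finrank K W' = finrank K (LinearMap.ker φ) :=
        LinearEquiv.finrank_eq
          (Submodule.equivMapOfInjective W.subtype W.injective_subtype _).symm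
      omega
    have hkf : Module.Finite K (LinearMap.ker φ) :=
      FiniteDimensional.finiteDimensional_submodule (K := K) (V := W) (LinearMap.ker φ)
    have hW'fin : FiniteDimensional K W' := Module.Finite.map (LinearMap.ker φ) W.subtype
    obtain ⟨d', hd'W, hd'⟩ := ih W' hW'fin hW'
    have hd'j : ∀ i, d' i j = 0 := by
      intro i
      obtain ⟨w, hw, hwe⟩ := hd'W i
      have h1 : (w : ι →₀ K) j = 0 := hw
      have h2 : (w : ι →₀ K) = 𝔯.up (d' i) := hwe
      rw [h2, up_apply] at h1
      exact Subtype.ext h1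
    refine ⟨Fin.cons d d', ?_, ?_⟩
    · intro i
      refine Fin.cases ?_ (fun i => ?_) i
      · exact hdW
      · obtain ⟨w, hw, hwe⟩ := hd'W i
        rw [Fin.cons_succ, ← hwe]
        exact w.2
    · have : (fun i => 𝔯.dn (Fin.cons (α := fun _ => ι →₀ 𝔯.A) d d' i)) =
          Fin.cons (α := fun _ => ι →₀ K₀) (𝔯.dn d) (fun i => 𝔯.dn (d' i)) := by
        ext i : 1
        refine Fin.cases ?_ (fun i => ?_) i
        · rfl
        · rfl
      rw [this, linearIndependent_finCons]
      refine ⟨hd', fun hmem => ?_⟩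
      have h1 : ∀ v ∈ Submodule.span K₀ (Set.range fun i => 𝔯.dn (d' i)), v j = 0 := by
        intro v hv
        induction hv using Submodule.span_induction with
        | mem v hv =>
          obtain ⟨i, rfl⟩ := hv
          simp [hd'j]
        | zero => rfl
        | add a b _ _ ha hb => rw [Finsupp.add_apply, ha, hb, add_zero]
        | smul c a _ ha => rw [Finsupp.smul_apply, ha, smul_zero]
      have h2 := h1 _ hmem
      rw [dn_apply, hdj, map_one] at h2
      exact one_ne_zero h2

end RD

end Fermat.Agent.BaseChangeFF
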