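import Fermat.Agent.BaseChangeFF.Echelon
import Fermat.Agent.BaseChangeFF.Basic

/-!
# The Gauss valuation ring of a base change of function fields
-/

set_option autoImplicit false

noncomputable section

open Module
open scoped TensorProduct

namespace Fermat.Agent.BaseChangeFF

namespace RD

variable {K₀ K : Type*} [Field K₀] [Field K] [Algebra K₀ K] (𝔯 : RD K₀ K)

instance : Algebra K₀ 𝔯.A := ((algebraMap K₀ K).codRestrict 𝔯.A.toSubring 𝔯.mem).toAlgebra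

theorem coe_alg (c : K₀) : ((algebraMap K₀ 𝔯.A c : 𝔯.A) : K) = algebraMap K₀ K c := rfl

/-- the residue map as an algebra map -/
def πa : 𝔯.A →ₐ[K₀] K₀ where
  toRingHom := 𝔯.π
  commutes' c := 𝔯.π_alg c

theorem πa_apply (a : 𝔯.A) : 𝔯.πa a = 𝔯.π a := rfl

variable (F₀ F : Type*) [Field F₀] [Algebra K₀ F₀]
  [Field F] [Algebra K F] [Algebra F₀ F] [Algebra K₀ F] [IsScalarTower K₀ K F]
  [IsScalarTower K₀ F₀ F]

/-- constants of `A` in `F` -/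
def cA : 𝔯.A →ₐ[K₀] F where
  toRingHom := (algebraMap K F).comp 𝔯.A.subtype
  commutes' c := by
    show algebraMap K F (algebraMap K₀ K c) = algebraMap K₀ F c
    rw [← IsScalarTower.algebraMap_apply]

/-- `A ⊗ F₀ → F` -/
def ψ : 𝔯.A ⊗[K₀] F₀ →ₐ[K₀] F :=
  Algebra.TensorProduct.lift (𝔯.cA F) (IsScalarTower.toAlgHom K₀ F₀ F) (fun _ _ => Commute.all _ _)

/-- `A ⊗ F₀ → F₀` -/
def φ : 𝔯.A ⊗[K₀] F₀ →ₐ[K₀] F₀ :=
  Algebra.TensorProduct.lift ((Algebra.ofId K₀ F₀).comp 𝔯.πa) (AlgHom.id K₀ F₀)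
    (fun _ _ => Commute.all _ _)

theorem ψ_tmul (a : 𝔯.A) (x : F₀) : 𝔯.ψ F₀ F (a ⊗ₜ x) = algebraMap K F (a : K) * algebraMap F₀ F x :=
  rfl

theorem φ_tmul (a : 𝔯.A) (x : F₀) : 𝔯.φ F₀ (a ⊗ₜ x) = algebraMap K₀ F₀ (𝔯.π a) * x :=
  rfl

variable {F₀} {ι : Type*} (b : Basis ι K₀ F₀)

/-- element of `A ⊗ F₀` with given coordinates -/
def elt (d : ι →₀ 𝔯.A) : 𝔯.A ⊗[K₀] F₀ := d.sum fun i a => a ⊗ₜ b i

/-- element of `F` with given coordinates -/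
def Φ : (ι →₀ K) →ₗ[K] F := Finsupp.linearCombination K (fun i => algebraMap F₀ F (b i))

theorem ψ_elt (d : ι →₀ 𝔯.A) : 𝔯.ψ F₀ F (𝔯.elt b d) = Φ F b (𝔯.up d) := by
  rw [elt, Finsupp.sum, map_sum, Φ, Finsupp.linearCombination_apply, up,
    Finsupp.sum_mapRange_index (by simp), Finsupp.sum]
  refine Finset.sum_congr rfl fun i _ => ?_
  rw [ψ_tmul, Algebra.smul_def]

theorem φ_elt (d : ι →₀ 𝔯.A) : 𝔯.φ F₀ (𝔯.elt b d) =
    Finsupp.linearCombination K₀ b (𝔯.dn d) := by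
  rw [elt, Finsupp.sum, map_sum, Finsupp.linearCombination_apply, dn,
    Finsupp.sum_mapRange_index (by simp), Finsupp.sum]
  refine Finset.sum_congr rfl fun i _ => ?_
  rw [φ_tmul, Algebra.smul_def]

theorem elt_surjective (t : 𝔯.A ⊗[K₀] F₀) : ∃ d : ι →₀ 𝔯.A, 𝔯.elt b d = t := by
  induction t using TensorProduct.induction_on with
  | zero => exact ⟨0, by simp [elt]⟩
  | add x y hx hy =>
    obtain ⟨d, rfl⟩ := hx
    obtain ⟨e, rfl⟩ := hy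
    classical
    refine ⟨d + e, ?_⟩
    rw [elt, Finsupp.sum_add_index' (by simp) (by intro i a b; rw [TensorProduct.add_tmul])]
    rfl
  | tmul a x =>
    refine ⟨(b.repr x).mapRange (fun c => a * algebraMap K₀ 𝔯.A c) (by simp), ?_⟩
    rw [elt, Finsupp.sum_mapRange_index (by simp)]
    conv_rhs => rw [← b.linearCombination_repr x, Finsupp.linearCombination_apply, Finsupp.sum,
      TensorProduct.tmul_sum]
    refine Finset.sum_congr rfl fun i _ => ?_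
    show (a * algebraMap K₀ 𝔯.A (b.repr x i)) ⊗ₜ[K₀] b i = a ⊗ₜ[K₀] (b.repr x i • b i)
    rw [TensorProduct.tmul_smul, TensorProduct.smul_tmul', Algebra.smul_def, mul_comm]

variable [hBC : BC K₀ K F₀ F]

omit [Algebra K₀ F] [IsScalarTower K₀ K F] [IsScalarTower K₀ F₀ F] in
theorem Φ_injective : Function.Injective (Φ (K := K) F b) :=
  hBC.linearIndependent b.linearIndependent

theorem ψ_injective : Function.Injective (𝔯.ψ F₀ F) := by
  rw [injective_iff_map_eq_zero]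
  intro t ht
  let b := Module.Basis.ofVectorSpace K₀ F₀
  obtain ⟨d, rfl⟩ := 𝔯.elt_surjective b t
  rw [ψ_elt] at ht
  have h1 : 𝔯.up d = 0 := Φ_injective F b (by rw [ht, map_zero])
  have h2 : d = 0 := by
    ext i
    have := DFunLike.congr_fun h1 i
    simpa using this
  rw [h2]; simp [elt]

omit hBC in
theorem Φ_repr (y : F₀) : Φ (K := K) F b ((b.repr y).mapRange (algebraMap K₀ K) (map_zero _)) =
    algebraMap F₀ F y := by
  conv_rhs => rw [← b.linearCombination_repr y, Finsupp.linearCombination_apply, Finsupp.sum,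
    map_sum]
  rw [Φ, Finsupp.linearCombination_apply, Finsupp.sum_mapRange_index (by simp), Finsupp.sum]
  refine Finset.sum_congr rfl fun i _ => ?_
  rw [Algebra.smul_def, Algebra.smul_def, map_mul, ← IsScalarTower.algebraMap_apply,
    ← IsScalarTower.algebraMap_apply]

omit hBC in
theorem mem_range_Φ {z : F} (hz : z ∈ Submodule.span K (Set.range (algebraMap F₀ F))) :
    z ∈ LinearMap.range (Φ (K := K) F b) := by
  have : Submodule.span K (Set.range (algebraMap F₀ F)) ≤ LinearMap.range (Φ (K := K) F b) := by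
    rw [Submodule.span_le]
    rintro _ ⟨y, rfl⟩
    exact ⟨_, Φ_repr F b y⟩
  exact this hz

omit hBC in
/-- nonzero elements of `K·F₀` are primitive up to a constant. -/
theorem exists_primitive {z : F} (hz : z ∈ Submodule.span K (Set.range (algebraMap F₀ F)))
    (hz0 : z ≠ 0) : ∃ (c : K) (t : 𝔯.A ⊗[K₀] F₀), c ≠ 0 ∧ 𝔯.φ F₀ t ≠ 0 ∧
      z = algebraMap K F c * 𝔯.ψ F₀ F t := by
  let b := Module.Basis.ofVectorSpace K₀ F₀
  obtain ⟨w, rfl⟩ := mem_range_Φ F b hz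
  have hw : w ≠ 0 := by
    rintro rfl
    exact hz0 (map_zero _)
  obtain ⟨j, d, hj0, hdj, hd⟩ := 𝔯.exists_scale w hw
  refine ⟨w j, 𝔯.elt b d, hj0, ?_, ?_⟩
  · rw [φ_elt]
    intro h0
    have h1 : 𝔯.dn d = 0 := b.linearIndependent (by rw [h0, map_zero])
    have h2 := DFunLike.congr_fun h1 j
    rw [dn_apply, hdj, map_one] at h2
    exact one_ne_zero h2
  · rw [ψ_elt, ← Algebra.smul_def, ← map_smul]
    congr 1
    ext i
    rw [hd i, Finsupp.smul_apply, up_apply, smul_eq_mul]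

omit hBC in
theorem φ_ne_zero_of_mul {t u : 𝔯.A ⊗[K₀] F₀} (ht : 𝔯.φ F₀ t ≠ 0) (hu : 𝔯.φ F₀ u ≠ 0) :
    𝔯.φ F₀ (t * u) ≠ 0 := by
  rw [map_mul]; exact mul_ne_zero ht hu

theorem ψ_ne_zero {t : 𝔯.A ⊗[K₀] F₀} (ht : 𝔯.φ F₀ t ≠ 0) : 𝔯.ψ F₀ F t ≠ 0 := by
  intro h0
  apply ht
  have : t = 0 := 𝔯.ψ_injective F (by rw [h0, map_zero])
  rw [this, map_zero]

variable (F₀)

/-- **The Gauss valuation ring**. -/
def O : ValuationSubring F where
  carrier := {z | ∃ t u : 𝔯.A ⊗[K₀] F₀, 𝔯.φ F₀ u ≠ 0 ∧ z * 𝔯.ψ F₀ F u = 𝔯.ψ F₀ F t}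
  mul_mem' := by
    rintro z z' ⟨t, u, hu, h⟩ ⟨t', u', hu', h'⟩
    refine ⟨t * t', u * u', 𝔯.φ_ne_zero_of_mul hu hu', ?_⟩
    rw [map_mul, map_mul, ← h, ← h']; ring
  one_mem' := ⟨1, 1, by rw [map_one]; exact one_ne_zero, by simp⟩
  add_mem' := by
    rintro z z' ⟨t, u, hu, h⟩ ⟨t', u', hu', h'⟩
    refine ⟨t * u' + t' * u, u * u', 𝔯.φ_ne_zero_of_mul hu hu', ?_⟩
    rw [map_add, map_mul, map_mul, map_mul, ← h, ← h']; ring
  zero_mem' := ⟨0, 1, by rw [map_one]; exact one_ne_zero, by simp⟩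
  neg_mem' := by
    rintro z ⟨t, u, hu, h⟩
    exact ⟨-t, u, hu, by rw [map_neg, ← h]; ring⟩
  mem_or_inv_mem' := by
    intro z
    by_cases hz : z = 0
    · left; rw [hz]; exact ⟨0, 1, by rw [map_one]; exact one_ne_zero, by simp⟩
    obtain ⟨a, b, ha, hb, hb0, hab⟩ := hBC.gen z
    have ha0 : a ≠ 0 := by rw [← hab]; exact mul_ne_zero hz hb0
    obtain ⟨α, t, hα, ht, rfl⟩ := 𝔯.exists_primitive F ha ha0
    obtain ⟨β, u, hβ, hu, rfl⟩ := 𝔯.exists_primitive F hb hb0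
    have hβF : algebraMap K F β ≠ 0 := by simpa using hβ
    have hαF : algebraMap K F α ≠ 0 := by simpa using hα
    rcases 𝔯.A.mem_or_inv_mem (α / β) with h | h
    · left
      refine ⟨(⟨α / β, h⟩ : 𝔯.A) ⊗ₜ 1 * t, u, hu, ?_⟩
      rw [map_mul, ψ_tmul, map_one, mul_one, map_div₀]
      field_simp
      linear_combination hab
    · right
      rw [inv_div] at h
      refine ⟨(⟨β / α, h⟩ : 𝔯.A) ⊗ₜ 1 * u, t, ht, ?_⟩
      rw [map_mul, ψ_tmul, map_one, mul_one, map_div₀]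
      field_simp
      linear_combination -hab

theorem mem_O {z : F} : z ∈ 𝔯.O F₀ F ↔
    ∃ t u : 𝔯.A ⊗[K₀] F₀, 𝔯.φ F₀ u ≠ 0 ∧ z * 𝔯.ψ F₀ F u = 𝔯.ψ F₀ F t := Iff.rfl

variable {F₀ F}

/-- residue as a function -/
def resFun (z : 𝔯.O F₀ F) : F₀ := 𝔯.φ F₀ (z.2.choose) / 𝔯.φ F₀ (z.2.choose_spec.choose)

theorem resFun_eq {z : 𝔯.O F₀ F} {t u : 𝔯.A ⊗[K₀] F₀} (hu : 𝔯.φ F₀ u ≠ 0)
    (h : (z : F) * 𝔯.ψ F₀ F u = 𝔯.ψ F₀ F t) : 𝔯.resFun z = 𝔯.φ F₀ t / 𝔯.φ F₀ u := by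
  set t' := z.2.choose with ht'
  set u' := z.2.choose_spec.choose with hu'
  have hu'0 : 𝔯.φ F₀ u' ≠ 0 := z.2.choose_spec.choose_spec.1
  have h' : (z : F) * 𝔯.ψ F₀ F u' = 𝔯.ψ F₀ F t' := z.2.choose_spec.choose_spec.2
  have h1 : t' * u = t * u' := by
    apply 𝔯.ψ_injective F
    rw [map_mul, map_mul, ← h, ← h']; ring
  have h2 := congrArg (𝔯.φ F₀) h1
  rw [map_mul, map_mul] at h2
  show 𝔯.φ F₀ t' / 𝔯.φ F₀ u' = _
  rw [div_eq_div_iff hu'0 hu, h2]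

/-- residue map -/
def res : 𝔯.O F₀ F →+* F₀ where
  toFun := 𝔯.resFun
  map_one' := by
    rw [𝔯.resFun_eq (t := 1) (u := 1) (by simp) (by simp)]; simp
  map_zero' := by
    rw [𝔯.resFun_eq (t := 0) (u := 1) (by simp) (by simp)]; simp
  map_mul' := by
    rintro ⟨z, t, u, hu, h⟩ ⟨z', t', u', hu', h'⟩
    rw [𝔯.resFun_eq (z := ⟨z, t, u, hu, h⟩) hu h, 𝔯.resFun_eq (z := ⟨z', t', u', hu', h'⟩) hu' h',
      𝔯.resFun_eq (t := t * t') (u := u * u') (𝔯.φ_ne_zero_of_mul hu hu')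
        (by
          show z * z' * _ = _
          rw [map_mul, map_mul, ← h, ← h']; ring)]
    rw [map_mul, map_mul]
    field_simp
  map_add' := by
    rintro ⟨z, t, u, hu, h⟩ ⟨z', t', u', hu', h'⟩
    rw [𝔯.resFun_eq (z := ⟨z, t, u, hu, h⟩) hu h, 𝔯.resFun_eq (z := ⟨z', t', u', hu', h'⟩) hu' h',
      𝔯.resFun_eq (t := t * u' + t' * u) (u := u * u') (𝔯.φ_ne_zero_of_mul hu hu')
        (by
          show (z + z') * _ = _
          rw [map_add, map_mul, map_mul, map_mul, ← h, ← h']; ring)]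
    rw [map_add, map_mul, map_mul, map_mul]
    field_simp

theorem res_eq {z : 𝔯.O F₀ F} {t u : 𝔯.A ⊗[K₀] F₀} (hu : 𝔯.φ F₀ u ≠ 0)
    (h : (z : F) * 𝔯.ψ F₀ F u = 𝔯.ψ F₀ F t) : 𝔯.res z = 𝔯.φ F₀ t / 𝔯.φ F₀ u :=
  𝔯.resFun_eq hu h

theorem algebraMap_mem_O (y : F₀) : algebraMap F₀ F y ∈ 𝔯.O F₀ F :=
  ⟨1 ⊗ₜ y, 1, by simp, by rw [ψ_tmul]; simp⟩

theorem res_algebraMap' (y : F₀) : 𝔯.res (⟨algebraMap F₀ F y, 𝔯.algebraMap_mem_O y⟩ : 𝔯.O F₀ F) = y := by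
  rw [𝔯.res_eq (t := 1 ⊗ₜ y) (u := 1) (by simp) (by rw [ψ_tmul]; simp), φ_tmul]
  simp

end RD

end Fermat.Agent.BaseChangeFF
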