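import Fermat.Agent.BaseChangeFF.Gauss

/-!
# The Deuring data of a base change of function fields
-/

set_option autoImplicit false

noncomputable section

open Module
open scoped TensorProduct

namespace Fermat.Agent.BaseChangeFF

namespace RD

variable {K₀ K : Type*} [Field K₀] [Field K] [Algebra K₀ K] (𝔯 : RD K₀ K)
variable (F₀ F : Type*) [Field F₀] [Algebra K₀ F₀]
  [Field F] [Algebra K F] [Algebra F₀ F] [Algebra K₀ F] [IsScalarTower K₀ K F]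
  [IsScalarTower K₀ F₀ F]
  [hBC : BC K₀ K F₀ F]

theorem algebraMap_mem_O_of_mem {a : K} (ha : a ∈ 𝔯.A) : algebraMap K F a ∈ 𝔯.O F₀ F :=
  ⟨⟨a, ha⟩ ⊗ₜ 1, 1, by simp, by rw [ψ_tmul]; simp⟩

theorem res_algebraMap_K {a : K} (ha : a ∈ 𝔯.A) :
    𝔯.res (⟨algebraMap K F a, 𝔯.algebraMap_mem_O_of_mem F₀ F ha⟩ : 𝔯.O F₀ F) =
      algebraMap K₀ F₀ (𝔯.π ⟨a, ha⟩) := by
  rw [𝔯.res_eq (t := ⟨a, ha⟩ ⊗ₜ 1) (u := 1) (by simp) (by rw [ψ_tmul]; simp), φ_tmul]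
  simp

theorem mem_iff (a : K) : algebraMap K F a ∈ 𝔯.O F₀ F ↔ a ∈ 𝔯.A := by
  refine ⟨fun h => ?_, 𝔯.algebraMap_mem_O_of_mem F₀ F⟩
  by_contra ha
  have ha0 : a ≠ 0 := fun h0 => ha (by rw [h0]; exact zero_mem _)
  have hinv : a⁻¹ ∈ 𝔯.A := (𝔯.A.mem_or_inv_mem a).resolve_left ha
  have h1 : 𝔯.π ⟨a⁻¹, hinv⟩ = 0 := by
    rw [𝔯.ker]
    intro hu
    obtain ⟨b, hb⟩ := hu.exists_right_inv
    have h2 : a⁻¹ * (b : K) = 1 := congrArg Subtype.val hb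
    apply ha
    have h3 : a = b := by
      field_simp at h2
      exact h2.symm
    rw [h3]; exact b.2
  have h2 := 𝔯.res_algebraMap_K F₀ F hinv
  rw [h1, map_zero] at h2
  have h3 : (⟨algebraMap K F a, h⟩ : 𝔯.O F₀ F) *
      ⟨algebraMap K F a⁻¹, 𝔯.algebraMap_mem_O_of_mem F₀ F hinv⟩ = 1 := by
    apply Subtype.ext
    show algebraMap K F a * algebraMap K F a⁻¹ = 1
    rw [← map_mul, mul_inv_cancel₀ ha0, map_one]
  have h4 := congrArg 𝔯.res h3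
  rw [map_mul, h2, mul_zero, map_one] at h4
  exact zero_ne_one h4

theorem res_ker (f : 𝔯.O F₀ F) : 𝔯.res f = 0 ↔ ¬ IsUnit f := by
  constructor
  · intro h0 hu
    have := hu.map 𝔯.res
    rw [h0] at this
    exact not_isUnit_zero this
  · intro hu
    by_contra h0
    apply hu
    obtain ⟨z, t, u, hu', h⟩ := f
    rw [𝔯.res_eq hu' h] at h0
    have ht : 𝔯.φ F₀ t ≠ 0 := by
      intro ht
      rw [ht, zero_div] at h0
      exact h0 rfl
    have hz : z ≠ 0 := by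
      rintro rfl
      rw [zero_mul] at h
      exact 𝔯.ψ_ne_zero F ht h.symm
    refine isUnit_iff_exists_inv.mpr ⟨⟨z⁻¹, u, t, ht, ?_⟩, ?_⟩
    · rw [← h]; field_simp
    · apply Subtype.ext
      exact mul_inv_cancel₀ hz

/-- common denominators -/
theorem exists_denominator (s : Finset F) : ∃ u : 𝔯.A ⊗[K₀] F₀, 𝔯.φ F₀ u ≠ 0 ∧
    ∀ z ∈ s, z * 𝔯.ψ F₀ F u ∈ Submodule.span K (Set.range (algebraMap F₀ F)) := by
  classical
  let b := Module.Basis.ofVectorSpace K₀ F₀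
  have hψ : ∀ t : 𝔯.A ⊗[K₀] F₀, 𝔯.ψ F₀ F t ∈ Submodule.span K (Set.range (algebraMap F₀ F)) := by
    intro t
    obtain ⟨d, rfl⟩ := 𝔯.elt_surjective b t
    rw [ψ_elt, Φ, Finsupp.linearCombination_apply]
    refine Submodule.sum_mem _ fun i _ => Submodule.smul_mem _ _ (Submodule.subset_span ⟨_, rfl⟩)
  have hmul : ∀ z ∈ Submodule.span K (Set.range (algebraMap F₀ F)), ∀ t : 𝔯.A ⊗[K₀] F₀,
      z * 𝔯.ψ F₀ F t ∈ Submodule.span K (Set.range (algebraMap F₀ F)) := by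
    intro z hz t
    by_cases hz0 : z = 0
    · rw [hz0, zero_mul]; exact Submodule.zero_mem _
    obtain ⟨c, t', hc, ht', rfl⟩ := 𝔯.exists_primitive F hz hz0
    rw [mul_assoc, ← map_mul, ← Algebra.smul_def]
    exact Submodule.smul_mem _ _ (hψ _)
  induction s using Finset.induction_on with
  | empty => exact ⟨1, by simp, by simp⟩
  | insert z s hz ih =>
    obtain ⟨u, hu, hus⟩ := ih
    obtain ⟨a, b, ha, hb, hb0, hab⟩ := hBC.gen z
    obtain ⟨β, v, hβ, hv, rfl⟩ := 𝔯.exists_primitive F hb hb0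
    have hβF : algebraMap K F β ≠ 0 := by simpa using hβ
    refine ⟨v * u, 𝔯.φ_ne_zero_of_mul hv hu, ?_⟩
    intro w hw
    rw [Finset.mem_insert] at hw
    rcases hw with rfl | hw
    · have : w * 𝔯.ψ F₀ F (v * u) = (β⁻¹ • a) * 𝔯.ψ F₀ F u := by
        rw [map_mul, Algebra.smul_def, ← hab, map_inv₀]
        field_simp
      rw [this]
      exact hmul _ (Submodule.smul_mem _ _ ha) _
    · have : w * 𝔯.ψ F₀ F (v * u) = (w * 𝔯.ψ F₀ F u) * 𝔯.ψ F₀ F v := by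
        rw [map_mul]; ring
      rw [this]
      exact hmul _ (hus w hw) _

theorem lat (V : Submodule K F) (hV : FiniteDimensional K V) :
    ∃ e : Fin (finrank K V) → 𝔯.O F₀ F, (∀ i, ((e i : 𝔯.O F₀ F) : F) ∈ V) ∧
      LinearIndependent K₀ (fun i => 𝔯.res (e i)) := by
  classical
  obtain ⟨s, hs⟩ := (Module.Finite.iff_fg.mp hV)
  obtain ⟨u, hu, hus⟩ := 𝔯.exists_denominator F₀ F s
  have hψu : 𝔯.ψ F₀ F u ≠ 0 := 𝔯.ψ_ne_zero F hu
  let b := Module.Basis.ofVectorSpace K₀ F₀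
  -- the embedding
  let L : (Module.Basis.ofVectorSpaceIndex K₀ F₀ →₀ K) →ₗ[K] F :=
    (LinearMap.mulRight K (𝔯.ψ F₀ F u)⁻¹).comp (Φ F b)
  have hL : ∀ c, L c = Φ F b c * (𝔯.ψ F₀ F u)⁻¹ := fun c => rfl
  have hLinj : Function.Injective L := by
    intro c c' h
    rw [hL, hL] at h
    exact Φ_injective F b (mul_right_cancel₀ (inv_ne_zero hψu) h)
  have hrange : V ≤ LinearMap.range L := by
    rw [← hs, Submodule.span_le]
    intro z hz
    obtain ⟨c, hc⟩ := mem_range_Φ F b (hus z hz)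
    refine ⟨c, ?_⟩
    rw [hL, hc]
    field_simp
  let W := V.comap L
  have hmap : W.map L = V := Submodule.map_comap_eq_self hrange
  let eW : W ≃ₗ[K] V := (Submodule.equivMapOfInjective L hLinj W).trans (LinearEquiv.ofEq _ _ hmap)
  have hWfin : FiniteDimensional K W := Module.Finite.equiv eW.symm
  have hWrank : finrank K W = finrank K V := eW.finrank_eq
  obtain ⟨d, hdW, hd⟩ := 𝔯.exists_echelon (finrank K V) W hWfin hWrank
  have hmem : ∀ i, Φ F b (𝔯.up (d i)) * (𝔯.ψ F₀ F u)⁻¹ * 𝔯.ψ F₀ F u = 𝔯.ψ F₀ F (𝔯.elt b (d i)) := by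
    intro i
    rw [ψ_elt]
    field_simp
  refine ⟨fun i => ⟨Φ F b (𝔯.up (d i)) * (𝔯.ψ F₀ F u)⁻¹, 𝔯.elt b (d i), u, hu, hmem i⟩,
    fun i => hdW i, ?_⟩
  have h1 : (fun i => 𝔯.res (⟨Φ F b (𝔯.up (d i)) * (𝔯.ψ F₀ F u)⁻¹, 𝔯.elt b (d i), u, hu, hmem i⟩ :
      𝔯.O F₀ F)) = fun i => (LinearMap.mulRight K₀ (𝔯.φ F₀ u)⁻¹).comp
        (Finsupp.linearCombination K₀ b) (𝔯.dn (d i)) := by
    ext i
    rw [𝔯.res_eq hu (hmem i), φ_elt]
    rw [LinearMap.comp_apply, LinearMap.mulRight_apply, div_eq_mul_inv]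
  rw [h1]
  apply hd.map'
  rw [LinearMap.ker_eq_bot]
  intro c c' h
  rw [LinearMap.comp_apply, LinearMap.comp_apply, LinearMap.mulRight_apply,
    LinearMap.mulRight_apply] at h
  exact b.linearIndependent (mul_right_cancel₀ (inv_ne_zero hu) h)

/-- **Deuring data of a base change.** -/
def data : Deuring.Data K K₀ F F₀ where
  A := 𝔯.A
  O := 𝔯.O F₀ F
  π := 𝔯.π
  res := 𝔯.res
  mem_iff := 𝔯.mem_iff F₀ F
  π_surj c := ⟨_, 𝔯.π_alg c⟩
  π_ker := 𝔯.ker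
  res_surj y := ⟨_, 𝔯.res_algebraMap' y⟩
  res_ker := 𝔯.res_ker F₀ F
  res_algebraMap a := 𝔯.res_algebraMap_K F₀ F a.2
  lat := 𝔯.lat F₀ F

end RD

end Fermat.Agent.BaseChangeFF
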