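import Fermat.Agent.BaseChangeFF.Basic

/-!
# Base change of places and divisors
-/

set_option autoImplicit false

noncomputable section

open AlgebraicCurve Module IntermediateField
open Fermat.Agent.FunField Fermat.Agent.FunField.PlaceLemmas

namespace Fermat.Agent.BaseChangeFF

variable {K₀ K F₀ F : Type*} [Field K₀] [Field K] [Algebra K₀ K] [Field F₀] [Algebra K₀ F₀]
  [Field F] [Algebra K F] [Algebra F₀ F] [Algebra K₀ F] [IsScalarTower K₀ K F]
  [IsScalarTower K₀ F₀ F]
  [IsAlgClosed K₀] [IsAlgClosed K] [BC K₀ K F₀ F] [IsFF K₀ F₀] [IsFF K F]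

theorem exists_above (v : Place K₀ F₀) : ∃ w : Place K F, v.toValuationSubring = rst w ∧
    (∀ f : F₀, w.ord (algebraMap F₀ F f) = v.ord f) ∧
    ∀ w' : Place K F, v.toValuationSubring = rst w' → w' = w := by
  classical
  obtain ⟨f, hf0, hfv, hfw⟩ := exists_pole_only v
  have hf : Transcendental K₀ f := transcendental_of_ord_ne_zero v (by omega)
  have hf' := BC.transcendental (K := K) (F := F) hf
  set m : ℤ := -(v.ord f) with hm
  have hm0 : 0 < m := by omega
  have hP₀ : (poleDiv f : Divisor K₀ F₀) = Finsupp.single v m := by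
    ext w
    rw [poleDiv_apply, Finsupp.single_apply]
    split_ifs with h
    · subst h; omega
    · have := hfw w (fun h' => h h'.symm)
      omega
  have hdeg₀ := degree_poleDiv hf
  rw [hP₀, Divisor.degree_single, Deuring.deg_eq_one, Nat.cast_one, mul_one] at hdeg₀
  set P : Divisor K F := poleDiv (algebraMap F₀ F f) with hP
  have hdeg := degree_poleDiv hf'
  rw [finrank_adjoin_eq hf, ← hdeg₀, ← hP] at hdeg
  have habove : ∀ w : Place K F, P w ≠ 0 → v.toValuationSubring = rst w := by
    intro w hw
    rw [hP, poleDiv_apply] at hw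
    have h1 : rst (F₀ := F₀) w ≠ ⊤ := by
      intro h
      rw [ord_eq_zero_of_rst_top h] at hw
      simp at hw
    obtain ⟨e, he, heq⟩ := exists_ram (K₀ := K₀) (w := w) (v := below (K₀ := K₀) w h1) rfl
    have h2 : (below (K₀ := K₀) w h1).ord f < 0 := by
      by_contra h3
      push Not at h3
      apply hw
      rw [heq]
      have : 0 ≤ e * (below (K₀ := K₀) w h1).ord f := mul_nonneg he.le h3
      omega
    by_contra hne
    have h3 : below (K₀ := K₀) w h1 ≠ v := by
      intro h4
      apply hne
      rw [← h4]; rfl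
    have := hfw _ h3
    omega
  have hPw : ∀ w : Place K F, v.toValuationSubring = rst w → ∃ e : ℤ, 0 < e ∧ P w = e * m ∧
      ∀ f : F₀, w.ord (algebraMap F₀ F f) = e * v.ord f := by
    intro w hw
    obtain ⟨e, he, heq⟩ := exists_ram (K₀ := K₀) (w := w) (v := v) hw
    refine ⟨e, he, ?_, heq⟩
    rw [hP, poleDiv_apply, heq]
    have : 0 < e * m := mul_pos he hm0
    have h2 : -(e * v.ord f) = e * m := by rw [hm]; ring
    rw [h2]
    omega
  have hPne : P ≠ 0 := by
    intro h0
    rw [h0, map_zero] at hdeg
    omega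
  obtain ⟨w, hw⟩ : ∃ w, P w ≠ 0 := by
    by_contra! hcon
    exact hPne (Finsupp.ext hcon)
  have hwv := habove w hw
  obtain ⟨e, he, hPe, heq⟩ := hPw w hwv
  have hle : Finsupp.single w m ≤ P := by
    rw [Finsupp.le_def]
    intro w'
    rw [Finsupp.single_apply]
    split_ifs with h
    · subst h
      rw [hPe]
      nlinarith
    · exact poleDiv_nonneg _ w'
  have hPeq : Finsupp.single w m = P := by
    apply Deuring.eq_of_le_of_degree_le hle
    rw [hdeg, Divisor.degree_single, Deuring.deg_eq_one, Nat.cast_one, mul_one]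
  have he1 : e = 1 := by
    have h1 := DFunLike.congr_fun hPeq w
    rw [Finsupp.single_eq_same, hPe] at h1
    nlinarith
  refine ⟨w, hwv, ?_, ?_⟩
  · intro f
    rw [heq, he1, one_mul]
  · intro w' hw'
    obtain ⟨e', he', hPe', -⟩ := hPw w' hw'
    by_contra hne
    rw [← hPeq, Finsupp.single_apply, if_neg (fun h => hne h.symm)] at hPe'
    have := mul_pos he' hm0
    omega

variable (K F) in
/-- The place of `F` above a place of `F₀`. -/
def iota (v : Place K₀ F₀) : Place K F := (exists_above (K := K) (F := F) v).choose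

theorem rst_iota (v : Place K₀ F₀) : v.toValuationSubring = rst (iota K F v) :=
  (exists_above (K := K) (F := F) v).choose_spec.1

theorem ord_iota (v : Place K₀ F₀) (f : F₀) : (iota K F v).ord (algebraMap F₀ F f) = v.ord f :=
  (exists_above (K := K) (F := F) v).choose_spec.2.1 f

theorem eq_iota {v : Place K₀ F₀} {w : Place K F} (h : v.toValuationSubring = rst w) :
    w = iota K F v :=
  (exists_above (K := K) (F := F) v).choose_spec.2.2 w h

theorem iota_injective : Function.Injective (iota (K₀ := K₀) (F₀ := F₀) K F) := by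
  intro v v' h
  apply Place.ext
  rw [rst_iota (K := K) (F := F) v, rst_iota (K := K) (F := F) v', h]

theorem rst_top_of_not_mem_range {w : Place K F} (h : w ∉ Set.range (iota (K₀ := K₀) (F₀ := F₀) K F)) :
    rst (F₀ := F₀) w = ⊤ := by
  by_contra hne
  exact h ⟨below (K₀ := K₀) w hne, (eq_iota (v := below (K₀ := K₀) w hne) rfl).symm⟩

variable (K F) in
/-- base change of divisors -/
def iotaDiv : Divisor K₀ F₀ →+ Divisor K F := Finsupp.mapDomain.addMonoidHom (iota K F)

theorem iotaDiv_apply (D : Divisor K₀ F₀) :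
    iotaDiv K F D = Finsupp.mapDomain (iota K F) D := rfl

theorem iotaDiv_iota (D : Divisor K₀ F₀) (v : Place K₀ F₀) : iotaDiv K F D (iota K F v) = D v :=
  Finsupp.mapDomain_apply iota_injective D v

theorem degree_mapDomain {K F K' F' : Type*} [Field K] [Field F] [Algebra K F] [Field K']
    [Field F'] [Algebra K' F'] [IsFF K F] [IsFF K' F'] [IsAlgClosed K] [IsAlgClosed K']
    (r : Place K F → Place K' F') (D : Divisor K F) :
    Divisor.degree (Finsupp.mapDomain r D) = Divisor.degree D := by
  induction D using Finsupp.induction with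
  | zero => simp
  | single_add v n D _ _ ih =>
    rw [Finsupp.mapDomain_add, map_add, map_add, ih, Finsupp.mapDomain_single,
      Divisor.degree_single, Divisor.degree_single, Deuring.deg_eq_one, Deuring.deg_eq_one]

theorem degree_iotaDiv (D : Divisor K₀ F₀) :
    Divisor.degree (iotaDiv K F D) = Divisor.degree D := degree_mapDomain _ D

/-- divisors of functions of `F₀` -/
theorem iotaDiv_divOf (f : F₀) :
    iotaDiv K F (divOf f : Divisor K₀ F₀) = divOf (algebraMap F₀ F f) := by
  ext w
  rw [divOf_apply]
  by_cases h : w ∈ Set.range (iota (K₀ := K₀) (F₀ := F₀) K F)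
  · obtain ⟨v, rfl⟩ := h
    rw [iotaDiv_iota, ord_iota, divOf_apply]
  · rw [ord_eq_zero_of_rst_top (rst_top_of_not_mem_range h), iotaDiv_apply,
      Finsupp.mapDomain_notin_range _ _ h]

end Fermat.Agent.BaseChangeFF
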