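import Fermat.Agent.BaseChangeFF.GaussData
import Fermat.Agent.BaseChangeFF.Places
import Fermat.Agent.TorsInj.DeuringTors

/-!
# Genus and torsion of the class group are invariant under base change
-/

set_option autoImplicit false

noncomputable section

open AlgebraicCurve Module IntermediateField
open Fermat.Agent.FunField Fermat.Agent.FunField.PlaceLemmas Fermat.Agent.TorsInj

namespace Fermat.Agent.BaseChangeFF

/-- a homomorphism of divisor groups compatible with degree and principality induces a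
homomorphism of class groups. -/
def picMap {K F K' F' : Type*} [Field K] [Field F] [Algebra K F] [Field K'] [Field F']
    [Algebra K' F'] (Θ : Divisor K F →+ Divisor K' F')
    (h1 : ∀ D, Divisor.degree (Θ D) = Divisor.degree D)
    (h2 : ∀ D, Divisor.IsPrincipal D → Divisor.IsPrincipal (Θ D)) : Pic0 K F →+ Pic0 K' F' :=
  QuotientAddGroup.map _ _
    (((Θ.comp (AddSubgroup.subtype _)).codRestrict _ (fun D => by
      rw [Divisor.mem_degZero]
      show Divisor.degree (Θ D) = 0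
      rw [h1]; exact D.2)) :
      Divisor.degZero (K := K) (F := F) →+ Divisor.degZero (K := K') (F := F'))
    (by
      rintro ⟨D, hD0⟩ hD
      simp only [AddSubgroup.mem_addSubgroupOf] at hD
      rw [AddSubgroup.mem_comap, AddSubgroup.mem_addSubgroupOf]
      exact h2 D hD)

theorem picMap_mk {K F K' F' : Type*} [Field K] [Field F] [Algebra K F] [Field K'] [Field F']
    [Algebra K' F'] (Θ : Divisor K F →+ Divisor K' F')
    (h1 : ∀ D, Divisor.degree (Θ D) = Divisor.degree D)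
    (h2 : ∀ D, Divisor.IsPrincipal D → Divisor.IsPrincipal (Θ D))
    (D : Divisor K F) (hD : D ∈ Divisor.degZero (K := K) (F := F)) :
    picMap Θ h1 h2 (Pic0.mk ⟨D, hD⟩) = Pic0.mk ⟨Θ D, by
      rw [Divisor.mem_degZero, h1]; exact hD⟩ := rfl

theorem mk_eq_zero_iff {K F : Type*} [Field K] [Field F] [Algebra K F] (D : Divisor K F)
    (hD : D ∈ Divisor.degZero (K := K) (F := F)) :
    Pic0.mk ⟨D, hD⟩ = 0 ↔ Divisor.IsPrincipal D := by
  unfold Pic0.mk
  rw [QuotientAddGroup.eq_zero_iff, AddSubgroup.mem_addSubgroupOf]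
  exact Iff.rfl

variable {K₀ K F₀ F : Type*} [Field K₀] [Field K] [Algebra K₀ K] [Field F₀] [Algebra K₀ F₀]
  [Field F] [Algebra K F] [Algebra F₀ F] [Algebra K₀ F] [IsScalarTower K₀ K F]
  [IsScalarTower K₀ F₀ F]
  [IsAlgClosed K₀] [IsAlgClosed K] [BC K₀ K F₀ F] [IsFF K₀ F₀] [IsFF K F]

variable (K₀ K F₀ F) in
theorem genusFF_eq : genusFF K F = genusFF K₀ F₀ := by
  apply le_antisymm (genusFF_le (K₀ := K₀) (F₀ := F₀))
  obtain ⟨𝔯⟩ := exists_RD K₀ K
  have := (𝔯.data F₀ F).genus_le rrLarge_genusFF rrLarge_genusFF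
  exact_mod_cast this

theorem isPrincipal_iff {K F : Type*} [Field K] [Field F] [Algebra K F] [IsFF K F]
    {D : Divisor K F} : Divisor.IsPrincipal D ↔ ∃ f : F, f ≠ 0 ∧ D = divOf f := by
  constructor
  · rintro ⟨f, hf, h⟩
    exact ⟨f, hf, by ext v; rw [h, divOf_apply]⟩
  · rintro ⟨f, hf, rfl⟩
    exact ⟨f, hf, fun v => divOf_apply f v⟩

theorem isPrincipal_iotaDiv {D : Divisor K₀ F₀} (h : Divisor.IsPrincipal D) :
    Divisor.IsPrincipal (iotaDiv K F D) := by
  rw [isPrincipal_iff] at h ⊢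
  obtain ⟨f, hf, rfl⟩ := h
  exact ⟨algebraMap F₀ F f, by simpa using hf, iotaDiv_divOf f⟩

variable (K₀ K F₀ F) in
/-- The reduction map of places for a base change. -/
theorem exists_red : ∃ r : Place K F → Place K₀ F₀,
    (∀ v, r (iota K F v) = v) ∧
    (∀ D : Divisor K F, Divisor.IsPrincipal D → Divisor.IsPrincipal (Finsupp.mapDomain r D)) ∧
    ∀ (m : ℕ) (D : Divisor K F), (m : K₀) ≠ 0 → Divisor.IsPrincipal (m • D) →
      Divisor.IsPrincipal (Finsupp.mapDomain r D) → Divisor.IsPrincipal D := by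
  classical
  obtain ⟨𝔯⟩ := exists_RD K₀ K
  set 𝔇 := 𝔯.data F₀ F with h𝔇
  have hRR : Deuring.RRLarge K F (genusFF K F) := rrLarge_genusFF
  have hRR₁ : Deuring.RRLarge K₀ F₀ (genusFF K F) := by
    rw [genusFF_eq K₀ K F₀ F]; exact rrLarge_genusFF
  obtain ⟨r, hr, hr2⟩ := 𝔇.exists_reduction hRR hRR₁
  have hr' : IsPlaceRed 𝔇 r := hr
  refine ⟨r, ?_, ?_, ?_⟩
  · -- `r ∘ iota = id`
    intro v
    obtain ⟨f, hf0, hfv, hfw⟩ := exists_pole_only v
    have h1 : 𝔇.res ⟨algebraMap F₀ F f, 𝔯.algebraMap_mem_O f⟩ = f := 𝔯.res_algebraMap' f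
    have h2 := hr'.mapDomain_divOf (f := ⟨algebraMap F₀ F f, 𝔯.algebraMap_mem_O f⟩)
      (by rw [h1]; exact hf0)
    rw [h1] at h2
    have h3 : Finsupp.mapDomain r (divOf (algebraMap F₀ F f) : Divisor K F) = divOf f := h2
    rw [← iotaDiv_divOf (K₀ := K₀) f, iotaDiv_apply, ← Finsupp.mapDomain_comp,
      divOf_eq_sub (K := K₀) f, Finsupp.mapDomain_sub] at h3
    have hP : (poleDiv f : Divisor K₀ F₀) = Finsupp.single v (-(v.ord f)) := by
      ext w
      rw [poleDiv_apply, Finsupp.single_apply]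
      split_ifs with h
      · subst h; omega
      · have := hfw w (fun h' => h h'.symm)
        omega
    rw [hP, Finsupp.mapDomain_single] at h3
    have h4 := DFunLike.congr_fun h3 v
    rw [Finsupp.sub_apply, Finsupp.sub_apply, Finsupp.single_eq_same, zeroDiv_apply,
      Finsupp.single_apply] at h4
    have h5 := Finsupp.le_def.mp (mapDomain_nonneg (r ∘ iota K F) (zeroDiv_nonneg (K := K₀) f)) v
    rw [Finsupp.zero_apply] at h5
    by_contra hne
    rw [if_neg (show ¬ (r ∘ iota K F) v = v from hne)] at h4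
    omega
  · intro D hD
    rw [isPrincipal_iff] at hD ⊢
    obtain ⟨f, hf, rfl⟩ := hD
    obtain ⟨c, hc, hmem, hres⟩ := 𝔇.exists_smul_res_ne_zero hf
    refine ⟨_, hres, ?_⟩
    rw [← hr'.mapDomain_divOf hres]
    congr 1
    show _ = divOf (c • f)
    rw [Algebra.smul_def, divOf_mul (by simpa using hc) hf, divOf_algebraMap, zero_add]
  · intro m D hm hmD hrD
    exact torsion_injective hRR hRR₁ hr' hr2 hm hmD hrD

variable (K F) in
/-- base change on class groups -/
def iotaPic : Pic0 K₀ F₀ →+ Pic0 K F :=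
  picMap (iotaDiv K F) degree_iotaDiv (fun _ => isPrincipal_iotaDiv)

variable (K₀ K F₀ F) in
/-- **Retraction of the base change map of class groups, injective on torsion.** -/
theorem exists_retraction : ∃ ρ : Pic0 K F →+ Pic0 K₀ F₀,
    (∀ x, ρ (iotaPic K F x) = x) ∧
    ∀ (m : ℕ) (x : Pic0 K F), (m : K₀) ≠ 0 → (m : ℤ) • x = 0 → ρ x = 0 → x = 0 := by
  obtain ⟨r, hr1, hr2, hr3⟩ := exists_red K₀ K F₀ F
  refine ⟨picMap (Finsupp.mapDomain.addMonoidHom r) (degree_mapDomain r) hr2, ?_, ?_⟩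
  · intro x
    obtain ⟨⟨D, hD⟩, rfl⟩ := Pic0.mk_surjective x
    rw [iotaPic, picMap_mk, picMap_mk]
    congr 1
    apply Subtype.ext
    show Finsupp.mapDomain r (Finsupp.mapDomain (iota K F) D) = D
    rw [← Finsupp.mapDomain_comp]
    have : r ∘ iota K F = id := funext hr1
    rw [this, Finsupp.mapDomain_id]
  · intro m x hm hmx hx
    obtain ⟨⟨D, hD⟩, rfl⟩ := Pic0.mk_surjective x
    rw [picMap_mk, mk_eq_zero_iff] at hx
    rw [mk_eq_zero_iff]
    apply hr3 m D hm _ hx
    have h1 : (m : ℤ) • (Pic0.mk ⟨D, hD⟩ : Pic0 K F) = Pic0.mk ⟨m • D, by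
        rw [Divisor.mem_degZero, map_nsmul, Divisor.mem_degZero.mp hD, smul_zero]⟩ := by
      rw [natCast_zsmul]
      rfl
    rw [h1, mk_eq_zero_iff] at hmx
    exact hmx

variable (K₀ K F₀ F) in
/-- **Torsion is invariant under base change.** -/
theorem natCard_torsion_eq [CharZero K₀] {n : ℕ} (hn : 0 < n) :
    Nat.card {x : Pic0 K F // (n : ℤ) • x = 0} = Nat.card {x : Pic0 K₀ F₀ // (n : ℤ) • x = 0} := by
  obtain ⟨ρ, h1, h2⟩ := exists_retraction K₀ K F₀ F
  have hn' : (n : K₀) ≠ 0 := by exact_mod_cast hn.ne'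
  refine Nat.card_congr
    { toFun := fun x => ⟨ρ x.1, by rw [← map_zsmul, x.2, map_zero]⟩
      invFun := fun y => ⟨iotaPic K F y.1, by rw [← map_zsmul, y.2, map_zero]⟩
      left_inv := ?_
      right_inv := fun y => Subtype.ext (h1 y.1) }
  intro x
  apply Subtype.ext
  show iotaPic K F (ρ x.1) = x.1
  have h3 := h2 n (x.1 - iotaPic K F (ρ x.1)) hn'
    (by rw [zsmul_sub, x.2, ← map_zsmul, ← map_zsmul, x.2, map_zero, map_zero, sub_zero])
    (by rw [map_sub, h1, sub_self])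
  exact (sub_eq_zero.mp h3).symm

end Fermat.Agent.BaseChangeFF
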