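import Fermat.Agent.BaseChangeFF.Descent
import Fermat.Agent.BaseChangeFF.Tensor
import Fermat.Agent.BaseChangeFF.Transfer
import Fermat.Agent.FunField.Kaehler

/-!
# The Lefschetz principle for torsion of class groups of function fields
-/

set_option autoImplicit false

noncomputable section

open AlgebraicCurve Module
open Fermat.Agent.FunField

namespace Fermat.Agent.BaseChangeFF

universe u v

/-- **Torsion count over every algebraically closed field of characteristic zero from the complex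
case.** -/
theorem natCard_torsion_of_complex
    (hC : ∀ (E : Type v) [Field E] [Algebra ℂ E] [IsCurveOver ℂ E] [Algebra.EssFiniteType ℂ E]
      (n : ℕ), 0 < n → Nat.card {x : Pic0 ℂ E // (n : ℤ) • x = 0} = n ^ (2 * genusFF ℂ E))
    (K : Type u) (F : Type v) [Field K] [Field F] [Algebra K F] [IsAlgClosed K] [CharZero K]
    [IsCurveOver K F] [Algebra.EssFiniteType K F] (n : ℕ) (hn : 0 < n) :
    Nat.card {x : Pic0 K F // (n : ℤ) • x = 0} = n ^ (2 * genusFF K F) := by
  have hFF : IsFF K F := isFF_of_isCurveOver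
  obtain ⟨K₀, F₀, hcount, hac, -, -, hFF₀, hBC⟩ := exists_descent (K := K) (F := F) ∅ ∅
  obtain ⟨φ⟩ := exists_embedding K₀
  letI : Algebra K₀ ℂ := φ.toAlgebra
  have hE : IsFF ℂ (BCField K₀ ℂ F₀) := isFF (K₀ := K₀) (F₀ := F₀)
  have hE' : IsCurveOver ℂ (BCField K₀ ℂ F₀) := isCurveOver_of_isFF
  have h1 := natCard_torsion_eq K₀ K F₀ F hn
  have h2 := natCard_torsion_eq K₀ ℂ F₀ (BCField K₀ ℂ F₀) hn
  have h3 := hC (BCField K₀ ℂ F₀) n hn
  rw [h1, ← h2, h3, genusFF_eq K₀ ℂ F₀ (BCField K₀ ℂ F₀), genusFF_eq K₀ K F₀ F]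

end Fermat.Agent.BaseChangeFF
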