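import Mathlib

/-!
# Valuation rings with prescribed algebraically closed residue field

For `K₀ ⊆ K` with `K₀` algebraically closed there is a valuation ring `A` of `K` containing
`K₀` whose residue field is `K₀`.
-/

set_option autoImplicit false

noncomputable section

namespace Fermat.Agent.BaseChangeFF

variable (K₀ K : Type*) [Field K₀] [Field K] [Algebra K₀ K]

/-- `K₀`-subspaces of `K` closed under multiplication and not containing `1`. -/
def NU (I : Submodule K₀ K) : Prop := (∀ a ∈ I, ∀ b ∈ I, a * b ∈ I) ∧ (1 : K) ∉ I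

theorem exists_maximal_NU : ∃ I : Submodule K₀ K, Maximal (NU K₀ K) I := by
  have := zorn_le₀ {I : Submodule K₀ K | NU K₀ K I} ?_
  · exact this
  intro c hc hchain
  by_cases hne : c.Nonempty
  · refine ⟨sSup c, ⟨?_, ?_⟩, fun z hz => le_sSup hz⟩
    · intro a ha b hb
      rw [Submodule.mem_sSup_of_directed hne hchain.directedOn] at ha hb ⊢
      obtain ⟨I, hI, haI⟩ := ha
      obtain ⟨J, hJ, hbJ⟩ := hb
      obtain ⟨L, hL, hIL, hJL⟩ := hchain.directedOn I hI J hJ
      exact ⟨L, hL, (hc hL).1 a (hIL haI) b (hJL hbJ)⟩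
    · rw [Submodule.mem_sSup_of_directed hne hchain.directedOn]
      rintro ⟨I, hI, h1⟩
      exact (hc hI).2 h1
  · refine ⟨⊥, ⟨?_, ?_⟩, fun z hz => absurd ⟨z, hz⟩ hne⟩
    · intro a ha b hb
      rw [Submodule.mem_bot] at ha ⊢
      rw [ha, zero_mul]
    · rw [Submodule.mem_bot]
      exact one_ne_zero

variable {K₀ K}

/-- the ring `K₀ + I`. -/
def NU.ring {I : Submodule K₀ K} (h : NU K₀ K I) : Subalgebra K₀ K where
  carrier := {x | ∃ c : K₀, x - algebraMap K₀ K c ∈ I}
  mul_mem' := by
    rintro x y ⟨c, hc⟩ ⟨d, hd⟩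
    refine ⟨c * d, ?_⟩
    have h1 : x * y - algebraMap K₀ K (c * d) = (x - algebraMap K₀ K c) * (y - algebraMap K₀ K d)
        + d • (x - algebraMap K₀ K c) + c • (y - algebraMap K₀ K d) := by
      rw [Algebra.smul_def, Algebra.smul_def, map_mul]; ring
    rw [h1]
    exact I.add_mem (I.add_mem (h.1 _ hc _ hd) (I.smul_mem _ hc)) (I.smul_mem _ hd)
  add_mem' := by
    rintro x y ⟨c, hc⟩ ⟨d, hd⟩
    refine ⟨c + d, ?_⟩
    have h1 : x + y - algebraMap K₀ K (c + d) = (x - algebraMap K₀ K c) +
      (y - algebraMap K₀ K d) := by rw [map_add]; ring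
    rw [h1]
    exact I.add_mem hc hd
  algebraMap_mem' c := ⟨c, by rw [sub_self]; exact I.zero_mem⟩

theorem NU.mem_ring {I : Submodule K₀ K} (h : NU K₀ K I) {x : K} (hx : x ∈ I) : x ∈ h.ring :=
  ⟨0, by rw [map_zero, sub_zero]; exact hx⟩

/-- `I` as an ideal of `K₀ + I` -/
def NU.ideal {I : Submodule K₀ K} (h : NU K₀ K I) : Ideal h.ring.toSubring where
  carrier := {x | (x : K) ∈ I}
  add_mem' ha hb := I.add_mem ha hb
  zero_mem' := I.zero_mem
  smul_mem' := by
    rintro ⟨x, c, hc⟩ ⟨y, hy⟩ (hyI : y ∈ I)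
    show x * y ∈ I
    have : x * y = (x - algebraMap K₀ K c) * y + c • y := by rw [Algebra.smul_def]; ring
    rw [this]
    exact I.add_mem (h.1 _ hc _ hyI) (I.smul_mem _ hyI)

theorem nonunits_iff (B : ValuationSubring K) (x : K) :
    x ∈ B.nonunits ↔ ∃ h : x ∈ B, ¬ IsUnit (⟨x, h⟩ : B) := by
  rw [ValuationSubring.mem_nonunits_iff_exists_mem_maximalIdeal]
  simp [IsLocalRing.mem_maximalIdeal, mem_nonunits_iff]

/-- the maximal ideal of a valuation ring containing `K₀`, as `K₀`-subspace. -/
def mB (B : ValuationSubring K) (hB : ∀ c : K₀, algebraMap K₀ K c ∈ B) : Submodule K₀ K where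
  carrier := B.nonunits
  add_mem' := by
    intro a b ha hb
    rw [SetLike.mem_coe, ValuationSubring.mem_nonunits_iff] at ha hb ⊢
    exact (Valuation.map_add _ _ _).trans_lt (max_lt ha hb)
  zero_mem' := by
    rw [SetLike.mem_coe, ValuationSubring.mem_nonunits_iff, map_zero]
    exact zero_lt_one
  smul_mem' := by
    intro c x hx
    rw [SetLike.mem_coe, ValuationSubring.mem_nonunits_iff] at hx ⊢
    rw [Algebra.smul_def, map_mul]
    exact mul_lt_one_of_nonneg_of_lt_one_right ((B.valuation_le_one_iff _).mpr (hB c)) zero_le hx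

theorem mem_mB {B : ValuationSubring K} {hB : ∀ c : K₀, algebraMap K₀ K c ∈ B} {x : K} :
    x ∈ mB B hB ↔ B.valuation x < 1 := by
  show x ∈ B.nonunits ↔ _
  rw [ValuationSubring.mem_nonunits_iff]

theorem NU_mB (B : ValuationSubring K) (hB : ∀ c : K₀, algebraMap K₀ K c ∈ B) :
    NU K₀ K (mB B hB) := by
  refine ⟨fun a ha b hb => ?_, ?_⟩
  · rw [mem_mB] at ha hb ⊢
    rw [map_mul]
    exact mul_lt_one_of_nonneg_of_lt_one_left zero_le ha hb.le
  · rw [mem_mB, map_one]
    exact lt_irrefl _

variable (K₀ K) in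
theorem exists_valuationSubring [IsAlgClosed K₀] :
    ∃ (B : ValuationSubring K), (∀ c : K₀, algebraMap K₀ K c ∈ B) ∧
      ∀ x ∈ B, ∃ c : K₀, B.valuation (x - algebraMap K₀ K c) < 1 := by
  obtain ⟨I, hI, hmax⟩ := exists_maximal_NU K₀ K
  obtain ⟨B, hRB, hIB⟩ := Ideal.image_subset_nonunits_valuationSubring hI.ideal (by
    intro h
    rw [Ideal.eq_top_iff_one] at h
    exact hI.2 h)
  have hB : ∀ c : K₀, algebraMap K₀ K c ∈ B := fun c => hRB (hI.ring.algebraMap_mem c)
  refine ⟨B, hB, ?_⟩
  have hle : I ≤ mB B hB := by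
    intro x hx
    exact hIB ⟨⟨x, hI.mem_ring hx⟩, hx, rfl⟩
  have heq : mB B hB ≤ I := hmax (NU_mB B hB) hle
  intro x hx
  by_contra! hcon
  -- a larger subspace
  let I' : Submodule K₀ K :=
    { carrier := {y | ∃ p : Polynomial K₀, y - x * Polynomial.aeval x p ∈ mB B hB}
      add_mem' := by
        rintro a b ⟨p, hp⟩ ⟨q, hq⟩
        refine ⟨p + q, ?_⟩
        have : a + b - x * Polynomial.aeval x (p + q) = (a - x * Polynomial.aeval x p) +
          (b - x * Polynomial.aeval x q) := by rw [map_add]; ring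
        rw [this]
        exact Submodule.add_mem _ hp hq
      zero_mem' := ⟨0, by simp⟩
      smul_mem' := by
        rintro c a ⟨p, hp⟩
        refine ⟨c • p, ?_⟩
        have : c • a - x * Polynomial.aeval x (c • p) = c • (a - x * Polynomial.aeval x p) := by
          rw [map_smul, smul_sub, mul_smul_comm]
        rw [this]
        exact Submodule.smul_mem _ _ hp }
  have haev : ∀ p : Polynomial K₀, Polynomial.aeval x p ∈ B := by
    intro p
    rw [Polynomial.aeval_eq_sum_range]
    refine sum_mem fun i _ => ?_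
    rw [Algebra.smul_def]
    exact mul_mem (hB _) (pow_mem hx _)
  have hmB : ∀ a ∈ mB B hB, ∀ b ∈ B, a * b ∈ mB B hB := by
    intro a ha b hb
    rw [mem_mB] at ha ⊢
    rw [map_mul]
    exact mul_lt_one_of_nonneg_of_lt_one_left zero_le ha ((B.valuation_le_one_iff _).mpr hb)
  -- no polynomial relation
  have hroot : ∀ q : Polynomial K₀, q ≠ 0 → B.valuation (Polynomial.aeval x q) = 1 := by
    intro q hq
    have hs := IsAlgClosed.splits q
    have h1 : ∀ c : K₀, B.valuation (x - algebraMap K₀ K c) = 1 := fun c =>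
      le_antisymm ((B.valuation_le_one_iff _).mpr (sub_mem hx (hB c))) (hcon c)
    have h2 : ∀ c : K₀, c ≠ 0 → B.valuation (algebraMap K₀ K c) = 1 := by
      intro c hc
      apply le_antisymm ((B.valuation_le_one_iff _).mpr (hB c))
      have h3 := (B.valuation_le_one_iff _).mpr (hB c⁻¹)
      rw [map_inv₀, map_inv₀] at h3
      have h4 : B.valuation (algebraMap K₀ K c) ≠ 0 := by simpa using hc
      rwa [inv_le_one₀ (zero_lt_iff.mpr h4)] at h3
    rw [hs.eq_prod_roots]
    rw [map_mul, Polynomial.aeval_C, map_mul, h2 _ (Polynomial.leadingCoeff_ne_zero.mpr hq),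
      one_mul]
    have h5 : ∀ s : Multiset K₀, B.valuation (Polynomial.aeval x
        (Multiset.map (fun a => Polynomial.X - Polynomial.C a) s).prod) = 1 := by
      intro s
      induction s using Multiset.induction_on with
      | empty => simp
      | cons a s ih =>
        rw [Multiset.map_cons, Multiset.prod_cons, map_mul, map_mul, ih, mul_one]
        have : Polynomial.aeval x (Polynomial.X - Polynomial.C a) = x - algebraMap K₀ K a := by
          simp
        rw [this, h1]
    exact h5 _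
  have hI'NU : NU K₀ K I' := by
    refine ⟨?_, ?_⟩
    · rintro a ⟨p, hp⟩ b ⟨q, hq⟩
      refine ⟨p * (Polynomial.X * q), ?_⟩
      have : a * b - x * Polynomial.aeval x (p * (Polynomial.X * q)) =
          (a - x * Polynomial.aeval x p) * (b - x * Polynomial.aeval x q) +
          (a - x * Polynomial.aeval x p) * (x * Polynomial.aeval x q) +
          (b - x * Polynomial.aeval x q) * (x * Polynomial.aeval x p) := by
        rw [map_mul, map_mul, Polynomial.aeval_X]; ring
      rw [this]
      refine Submodule.add_mem _ (Submodule.add_mem _ ((NU_mB B hB).1 _ hp _ hq) ?_) ?_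
      · exact hmB _ hp _ (mul_mem hx (haev q))
      · exact hmB _ hq _ (mul_mem hx (haev p))
    · rintro ⟨p, hp⟩
      rw [mem_mB] at hp
      have h1 : (1 : K) - x * Polynomial.aeval x p = Polynomial.aeval x (1 - Polynomial.X * p) := by
        simp
      rw [h1, hroot] at hp
      · exact lt_irrefl _ hp
      · intro h0
        have := congrArg (Polynomial.eval 0) h0
        simp at this
  have hII' : I ≤ I' := by
    intro y hy
    exact ⟨0, by simpa using hle hy⟩
  have h2 := hmax hI'NU hII'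
  have hxI' : x ∈ I' := ⟨1, by simp⟩
  have h3 := hle (h2 hxI')
  rw [mem_mB] at h3
  have h4 := hcon 0
  rw [map_zero, sub_zero] at h4
  exact absurd h3 (not_lt.mpr h4)

variable (K₀ K) in
/-- **Existence of a valuation ring with residue field `K₀`**. -/
theorem exists_residue [IsAlgClosed K₀] :
    ∃ (A : ValuationSubring K) (π : A →+* K₀) (hA : ∀ c : K₀, algebraMap K₀ K c ∈ A),
      (∀ c : K₀, π ⟨algebraMap K₀ K c, hA c⟩ = c) ∧ ∀ a : A, π a = 0 ↔ ¬ IsUnit a := by
  obtain ⟨A, hA, hres⟩ := exists_valuationSubring K₀ K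
  let j : K₀ →+* A := (algebraMap K₀ K).codRestrict A.toSubring hA
  let ρ : K₀ →+* IsLocalRing.ResidueField A := (IsLocalRing.residue A).comp j
  have hsurj : Function.Surjective ρ := by
    intro y
    obtain ⟨x, rfl⟩ := IsLocalRing.residue_surjective y
    obtain ⟨c, hc⟩ := hres x x.2
    refine ⟨c, ?_⟩
    show IsLocalRing.residue A (j c) = _
    rw [eq_comm, ← sub_eq_zero, ← map_sub, IsLocalRing.residue_eq_zero_iff]
    exact (A.valuation_lt_one_iff _).mpr hc
  let e : K₀ ≃+* IsLocalRing.ResidueField A := RingEquiv.ofBijective ρ ⟨ρ.injective, hsurj⟩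
  refine ⟨A, (e.symm : _ →+* K₀).comp (IsLocalRing.residue A), hA, ?_, ?_⟩
  · intro c
    show e.symm (ρ c) = c
    exact e.symm_apply_apply c
  · intro a
    show e.symm (IsLocalRing.residue A a) = 0 ↔ _
    rw [map_eq_zero_iff _ e.symm.injective, IsLocalRing.residue_eq_zero_iff,
      IsLocalRing.mem_maximalIdeal, mem_nonunits_iff]

end Fermat.Agent.BaseChangeFF
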